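import Fermat.Agent.ClassField.Idele.Cyclotomic.Field
import Fermat.Agent.ClassField.Recip.AuxPrime
import Fermat.Agent.EC.Det.CyclotomicChar
import Mathlib.GroupTheory.Index

/-!
# Auxiliary primes

`exists_auxiliary`: for a subgroup of finite index `U`, there are `q` and `D ≤ (ℤ/q)ˣ` with cyclic
quotient of order `p ^ s`, `n ≤ s`, on which `U` surjects by `cyclotomicClass`, and in which the
class of a given `a ≥ 2` has order divisible by `p ^ n`.
-/

set_option autoImplicit false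
set_option linter.unusedSectionVars false

noncomputable section

namespace Fermat.Agent.ClassField.Idele

local notation "Qb" => AlgebraicClosure ℚ
local notation "Γ" => (AlgebraicClosure ℚ ≃ₐ[ℚ] AlgebraicClosure ℚ)

/-- The exponent prime to `p` in `q - 1`. -/
def auxExp (p q : ℕ) : ℕ := (q - 1) / p ^ (q - 1).factorization p

/-- The units killed by `auxExp`. -/
def auxSubgroup (p : ℕ) (q : Nat.Primes) : Subgroup (ZMod (q : ℕ))ˣ :=
  (powMonoidHom (auxExp p (q : ℕ)) : (ZMod (q : ℕ))ˣ →* (ZMod (q : ℕ))ˣ).ker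

variable {p : ℕ} [Fact p.Prime] (q : Nat.Primes)

lemma auxExp_mul : auxExp p (q : ℕ) * p ^ ((q : ℕ) - 1).factorization p = (q : ℕ) - 1 :=
  Nat.div_mul_cancel (Nat.ordProj_dvd _ _)

lemma coprime_auxExp : p.Coprime (auxExp p (q : ℕ)) :=
  Nat.coprime_ordCompl (Fact.out : p.Prime) (by have := q.2.two_le; omega)

lemma orderOf_mk_auxSubgroup (x : (ZMod (q : ℕ))ˣ) :
    orderOf (QuotientGroup.mk x : (ZMod (q : ℕ))ˣ ⧸ auxSubgroup p q) =
      orderOf (x ^ auxExp p (q : ℕ)) :=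
  (orderOf_injective (QuotientGroup.kerLift _) (QuotientGroup.kerLift_injective
    (powMonoidHom (auxExp p (q : ℕ)) : (ZMod (q : ℕ))ˣ →* (ZMod (q : ℕ))ˣ)) _).symm

lemma neg_one_mem_auxSubgroup (hp : p ≠ 2) : (-1 : (ZMod (q : ℕ))ˣ) ∈ auxSubgroup p q := by
  rw [auxSubgroup, MonoidHom.mem_ker, powMonoidHom_apply]
  rcases q.2.eq_two_or_odd with h2 | h
  · have : Subsingleton (ZMod (q : ℕ))ˣ := by
      refine Fintype.card_le_one_iff_subsingleton.1 ?_
      rw [ZMod.card_units_eq_totient, h2, Nat.totient_two]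
    exact Subsingleton.elim _ _
  · refine Even.neg_one_pow ?_
    have h1 : 2 ∣ (q : ℕ) - 1 := by omega
    rw [← auxExp_mul (p := p) q] at h1
    exact even_iff_two_dvd.2 (((Nat.coprime_primes Nat.prime_two (Fact.out : p.Prime)).2
      (Ne.symm hp)).pow_right _ |>.dvd_of_dvd_mul_right h1)

lemma index_auxSubgroup [NeZero (q : ℕ)] :
    (auxSubgroup p q).index = p ^ ((q : ℕ) - 1).factorization p := by
  have : Fact (q : ℕ).Prime := ⟨q.2⟩
  have hcard : Nat.card (ZMod (q : ℕ))ˣ = (q : ℕ) - 1 := by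
    rw [Nat.card_eq_fintype_card, ZMod.card_units]
  rw [auxSubgroup, IsCyclic.index_powMonoidHom_ker, hcard]
  have h := auxExp_mul (p := p) q
  rw [Nat.gcd_eq_right (Dvd.intro _ h)]
  exact Nat.div_eq_of_eq_mul_left (Nat.pos_of_ne_zero fun h0 => by
    rw [h0, zero_mul] at h; have := q.2.two_le; omega) (by rw [mul_comm]; exact h.symm)

/-- The cyclotomic character modulo `n` is surjective. -/
theorem cycloChar_surjective_of_neZero (n : ℕ) [NeZero n] :
    Function.Surjective (EC.cycloChar n) := by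
  have : Algebra.IsAlgebraic ℚ Qb := AlgebraicClosure.isAlgebraic ℚ
  have : IsAlgClosure ℚ Qb := ⟨inferInstance, inferInstance⟩
  have : IsGalois ℚ Qb := IsAlgClosure.isGalois ℚ Qb
  intro u
  obtain ⟨ζ, hζ⟩ := EC.exists_primitiveRoot_qbar n
  have hζu : IsPrimitiveRoot (ζ ^ (u : ZMod n).val) n :=
    hζ.pow_of_coprime _ (ZMod.val_coe_unit_coprime u)
  have hconj : IsConjRoot ℚ (ζ ^ (u : ZMod n).val) ζ := by
    rw [isConjRoot_def, ← Polynomial.cyclotomic_eq_minpoly_rat hζ (NeZero.pos n),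
      ← Polynomial.cyclotomic_eq_minpoly_rat hζu (NeZero.pos n)]
  obtain ⟨σ, hσ⟩ := IsConjRoot.exists_algEquiv hconj
  refine ⟨σ, Units.ext ?_⟩
  rw [EC.cycloChar_eq_of_apply_eq_pow n σ hζ hσ, ZMod.natCast_zmod_val]

/-- The characters modulo two distinct primes are independent. -/
theorem exists_cycloChar_eq_one_and_eq {q q' : Nat.Primes} (h : q ≠ q') [NeZero (q : ℕ)]
    [NeZero (q' : ℕ)] (u : (ZMod (q' : ℕ))ˣ) :
    ∃ σ : Γ, σ ∈ (cycField q).fixingSubgroup ∧ σ (zetaQ q') = zetaQ q' ^ (u : ZMod (q' : ℕ)).val := by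
  have hcop : (q : ℕ).Coprime (q' : ℕ) :=
    (Nat.coprime_primes q.2 q'.2).mpr fun e => h (Subtype.ext e)
  let e := ZMod.chineseRemainder hcop
  let v : (ZMod ((q : ℕ) * (q' : ℕ)))ˣ :=
    Units.map e.symm.toMonoidHom (MulEquiv.prodUnits.symm (1, u))
  obtain ⟨σ, hσ⟩ := cycloChar_surjective_of_neZero ((q : ℕ) * (q' : ℕ)) v
  have hv : e (v : ZMod ((q : ℕ) * (q' : ℕ))) = (1, (u : ZMod (q' : ℕ))) := e.apply_symm_apply _
  have hfst : ((v : ZMod ((q : ℕ) * (q' : ℕ))).val : ZMod (q : ℕ)) = 1 := by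
    have h1 := congrArg Prod.fst hv
    rwa [← ZMod.natCast_zmod_val (v : ZMod ((q : ℕ) * (q' : ℕ))), map_natCast, Prod.fst_natCast] at h1
  have hsnd : ((v : ZMod ((q : ℕ) * (q' : ℕ))).val : ZMod (q' : ℕ)) = (u : ZMod (q' : ℕ)) := by
    have h1 := congrArg Prod.snd hv
    rwa [← ZMod.natCast_zmod_val (v : ZMod ((q : ℕ) * (q' : ℕ))), map_natCast, Prod.snd_natCast] at h1
  refine ⟨σ, mem_fixingSubgroup_adjoin_simple ?_, ?_⟩
  · rw [EC.apply_eq_pow_cycloChar ((q : ℕ) * (q' : ℕ)) σ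
      (by rw [pow_mul, (zetaQ_spec q).pow_eq_one, one_pow]), hσ]
    have hmod := (ZMod.natCast_eq_natCast_iff _ 1 (q : ℕ)).1 (by rw [hfst, Nat.cast_one])
    rw [pow_eq_pow_mod _ (zetaQ_spec q).pow_eq_one, hmod, ← pow_eq_pow_mod _ (zetaQ_spec q).pow_eq_one,
      pow_one]
  · rw [EC.apply_eq_pow_cycloChar ((q : ℕ) * (q' : ℕ)) σ
      (by rw [mul_comm, pow_mul, (zetaQ_spec q').pow_eq_one, one_pow]), hσ]
    conv_lhs => rw [pow_eq_pow_mod _ (zetaQ_spec q').pow_eq_one, ← ZMod.val_natCast, hsnd]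

lemma exists_mem_ker_and_class_eq {q q' : Nat.Primes} (h : q ≠ q') [NeZero (q : ℕ)]
    [NeZero (q' : ℕ)] (D : Subgroup (ZMod (q : ℕ))ˣ) (D' : Subgroup (ZMod (q' : ℕ))ˣ) (g : Γ) :
    ∃ σ : Γ, cyclotomicClass q D σ = 1 ∧ cyclotomicClass q' D' σ = cyclotomicClass q' D' g := by
  obtain ⟨σ, hσ, hσ'⟩ := exists_cycloChar_eq_one_and_eq h (ExtCitation.cycloChar (q' : ℕ) g)
  refine ⟨σ, fixingSubgroup_cycField_le q D hσ, congrArg (QuotientGroup.mk' D') (Units.ext ?_)⟩
  rw [apply_zetaQ] at hσ'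
  exact ZMod.val_injective _ ((zetaQ_spec q').pow_inj (ZMod.val_lt _) (ZMod.val_lt _) hσ')

/-- All but finitely many primes are auxiliary. -/
theorem exists_bound_map_eq_top (U : Subgroup Γ) [U.FiniteIndex]
    (D : ∀ q : Nat.Primes, Subgroup (ZMod (q : ℕ))ˣ) :
    ∃ B : ℕ, ∀ q : Nat.Primes, B < (q : ℕ) → ∀ a, ∃ g ∈ U, cyclotomicClass q (D q) g = a := by
  classical
  let V : Nat.Primes → Subgroup Γ := fun q => (U.map (cyclotomicClass q (D q))).comap (cyclotomicClass q (D q))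
  let bad : Set Nat.Primes := {q | V q ≠ ⊤}
  have hUV : ∀ q, U ≤ V q := fun q => Subgroup.le_comap_map _ U
  have hfin : bad.Finite := by
    have hinj : Set.InjOn (fun q => ((QuotientGroup.mk : Γ → Γ ⧸ U) '' (V q : Set Γ))) bad := by
      intro q hq q' hq' he
      by_contra hne
      have hVV : V q = V q' := by
        have key : ∀ a b : Nat.Primes, (QuotientGroup.mk : Γ → Γ ⧸ U) '' (V a : Set Γ) =
            (QuotientGroup.mk : Γ → Γ ⧸ U) '' (V b : Set Γ) → V a ≤ V b := by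
          intro a b hab g hg
          obtain ⟨g', hg', hgg⟩ := hab ▸ Set.mem_image_of_mem _ hg
          have := (V b).mul_mem hg' (hUV b (QuotientGroup.eq.1 hgg))
          rwa [mul_inv_cancel_left] at this
        exact le_antisymm (key _ _ he) (key _ _ he.symm)
      refine hq (eq_top_iff.2 fun g _ => ?_)
      have := q.2.ne_zero; have : NeZero (q : ℕ) := ⟨this⟩
      have := q'.2.ne_zero; have : NeZero (q' : ℕ) := ⟨this⟩
      obtain ⟨σ, hσ, hσ'⟩ := exists_mem_ker_and_class_eq hne (D q) (D q') g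
      have h1 : σ ∈ V q := by
        show cyclotomicClass q (D q) σ ∈ U.map (cyclotomicClass q (D q))
        rw [hσ]; exact one_mem _
      have h2 : σ⁻¹ * g ∈ V q := by
        rw [hVV]
        show cyclotomicClass q' (D q') (σ⁻¹ * g) ∈ U.map (cyclotomicClass q' (D q'))
        rw [map_mul, map_inv, hσ', inv_mul_cancel]; exact one_mem _
      simpa using (V q).mul_mem h1 h2
    exact Set.Finite.of_finite_image (Set.toFinite _) hinj
  refine ⟨hfin.toFinset.sup fun q => (q : ℕ), fun q hq a => ?_⟩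
  have hV : V q = ⊤ := by
    by_contra h
    exact absurd (Finset.le_sup (f := fun q : Nat.Primes => (q : ℕ)) (hfin.mem_toFinset.2 h)) (not_le.2 hq)
  obtain ⟨g, rfl⟩ := cyclotomicClass_surjective q (D q) a
  exact Subgroup.mem_map.1 (hV.symm ▸ Subgroup.mem_top g : g ∈ V q)

/-- **Auxiliary prime.** -/
theorem exists_auxiliary (hp : p ≠ 2) (U : Subgroup Γ) [U.FiniteIndex] (n : ℕ) {a : ℕ} (ha : 2 ≤ a) :
    ∃ (q : Nat.Primes) (D : Subgroup (ZMod (q : ℕ))ˣ) (s : ℕ),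
      (-1 : (ZMod (q : ℕ))ˣ) ∈ D ∧ D.index = p ^ s ∧ n ≤ s ∧ IsCyclic ((ZMod (q : ℕ))ˣ ⧸ D) ∧
      a < (q : ℕ) ∧ (∀ x, ∃ g ∈ U, cyclotomicClass q D g = x) ∧
      ∃ h : a.Coprime (q : ℕ),
        p ^ n ∣ orderOf (QuotientGroup.mk (ZMod.unitOfCoprime a h) : (ZMod (q : ℕ))ˣ ⧸ D) := by
  obtain ⟨B, hB⟩ := exists_bound_map_eq_top U (fun q => auxSubgroup p q)
  have hp' := (Fact.out : p.Prime)
  obtain ⟨q, hq, hBq, hord⟩ := Recip.exists_prime_dvd_orderOf hp' hp (a := a ^ p ^ n)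
    (ha.trans (Nat.le_self_pow (pow_ne_zero _ hp'.ne_zero) a)) (max B a)
  let qq : Nat.Primes := ⟨q, hq⟩
  have : NeZero (qq : ℕ) := ⟨hq.ne_zero⟩
  have hcop : a.Coprime q := ((hq.coprime_iff_not_dvd.mpr fun h =>
    absurd (Nat.le_of_dvd (by omega) h) (by omega))).symm
  have hdvd : p ^ (n + 1) ∣ orderOf (a : ZMod q) := by
    rw [Nat.cast_pow] at hord
    have hfin : IsOfFinOrder (a : ZMod q) := by
      rw [← ZMod.coe_unitOfCoprime a hcop]
      exact (Units.coeHom _).isOfFinOrder (isOfFinOrder_of_finite (ZMod.unitOfCoprime a hcop))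
    set o := orderOf (a : ZMod q)
    rw [hfin.orderOf_pow] at hord
    obtain ⟨i, hi, hgcd⟩ := (Nat.dvd_prime_pow hp').1 (Nat.gcd_dvd_right o (p ^ n))
    rw [hgcd] at hord
    have hodvd : p ^ i ∣ o := hgcd ▸ Nat.gcd_dvd_left o (p ^ n)
    have h1 : p ^ (i + 1) ∣ o := by
      rw [pow_succ]; exact (Nat.dvd_div_iff_mul_dvd hodvd).1 hord
    rcases eq_or_lt_of_le hi with rfl | hlt
    · exact h1
    · have h2 := Nat.dvd_gcd h1 (pow_dvd_pow p hlt)
      rw [hgcd] at h2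
      exact absurd (Nat.le_of_dvd (pow_pos hp'.pos i) h2)
        (not_le.2 (Nat.pow_lt_pow_succ hp'.one_lt))
  have hpq : p ^ n ∣ orderOf (QuotientGroup.mk (ZMod.unitOfCoprime a hcop) :
      (ZMod (qq : ℕ))ˣ ⧸ auxSubgroup p qq) := by
    rw [orderOf_mk_auxSubgroup]
    have h1 : orderOf (ZMod.unitOfCoprime a hcop) ∣
        auxExp p q * orderOf (ZMod.unitOfCoprime a hcop ^ auxExp p q) :=
      orderOf_dvd_of_pow_eq_one (by rw [pow_mul, pow_orderOf_eq_one])
    have h2 : p ^ (n + 1) ∣ orderOf (ZMod.unitOfCoprime a hcop) := by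
      rw [← orderOf_units, ZMod.coe_unitOfCoprime]; exact hdvd
    exact (pow_dvd_pow p n.le_succ).trans
      (((coprime_auxExp qq).pow_left _).dvd_of_dvd_mul_left (h2.trans h1))
  have hD := index_auxSubgroup (p := p) qq
  refine ⟨qq, auxSubgroup p qq, _, neg_one_mem_auxSubgroup qq hp, hD, ?_, ?_, ?_, hB qq ?_, hcop, hpq⟩
  · have h := hpq.trans (orderOf_dvd_natCard _)
    rw [show Nat.card ((ZMod (qq : ℕ))ˣ ⧸ auxSubgroup p qq) = _ from hD] at h
    exact (Nat.pow_dvd_pow_iff_le_right hp'.one_lt).1 h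
  · have : Fact (qq : ℕ).Prime := ⟨hq⟩
    exact isCyclic_of_surjective _ (QuotientGroup.mk'_surjective _)
  · show a < q
    omega
  · show B < q
    omega

end Fermat.Agent.ClassField.Idele
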