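import Fermat.Agent.ClassField.Idele.LocalFields
import Fermat.Agent.ClassField.Idele.CosetProd
import Fermat.Agent.ClassField.S14.Character
import Fermat.Agent.ClassField.PadicUnramified

/-!
# The auxiliary cyclotomic fields

For a prime `q` and a subgroup `D` of `(ℤ/q)ˣ`, `subField q D ⊆ ℚ(ζ_q)` is the field with group
`(ℤ/q)ˣ/D`, read off by `cyclotomicClass`.  At `ℓ ≠ q` some local automorphism acts as the class
of `ℓ` and absolute values are powers of `ℓ`; at `q` the local Galois group is everything and the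
residue field is `𝔽_q`.
-/

set_option autoImplicit false

noncomputable section

open IntermediateField

namespace Fermat.Agent.ClassField.Idele

local notation "Qb" => AlgebraicClosure ℚ
local notation "Γ" => (AlgebraicClosure ℚ ≃ₐ[ℚ] AlgebraicClosure ℚ)

variable (q : Nat.Primes)

local instance neZeroPrimes : NeZero (q : ℕ) := ⟨q.2.ne_zero⟩

/-- A primitive `q`-th root of unity. -/
def zetaQ : Qb :=
  (HasEnoughRootsOfUnity.exists_primitiveRoot Qb (q : ℕ)).choose

lemma zetaQ_spec : IsPrimitiveRoot (zetaQ q) (q : ℕ) :=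
  (HasEnoughRootsOfUnity.exists_primitiveRoot Qb (q : ℕ)).choose_spec

/-- The field of `q`-th roots of unity. -/
abbrev cycField : IntermediateField ℚ Qb := IntermediateField.adjoin ℚ {zetaQ q}

instance finiteDimensional_cycField : FiniteDimensional ℚ (cycField q) :=
  IntermediateField.adjoin.finiteDimensional (Algebra.IsIntegral.isIntegral _)

lemma apply_zetaQ (σ : Γ) :
    σ (zetaQ q) = zetaQ q ^ ((ExtCitation.cycloChar (q : ℕ) σ : (ZMod (q : ℕ))ˣ) : ZMod (q : ℕ)).val := by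
  have hmem : ((zetaQ_spec q).isUnit q.2.ne_zero).unit ∈ rootsOfUnity (q : ℕ) Qb := by
    rw [mem_rootsOfUnity']
    simp [(zetaQ_spec q).pow_eq_one]
  exact modularCyclotomicCharacter.spec Qb (ExtCitation.card_rootsOfUnity_eq_self (q : ℕ))
    (σ : Qb ≃+* Qb) hmem

lemma mem_fixingSubgroup_adjoin_simple {x : Qb} {σ : Γ} (h : σ x = x) :
    σ ∈ (IntermediateField.adjoin ℚ ({x} : Set Qb)).fixingSubgroup := by
  rw [IntermediateField.mem_fixingSubgroup_iff]
  intro y hy
  induction hy using IntermediateField.adjoin_induction with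
  | mem z hz => rw [Set.mem_singleton_iff.mp hz, h]
  | algebraMap r => exact σ.commutes r
  | add a b _ _ ha hb => rw [map_add, ha, hb]
  | inv a _ ha => rw [map_inv₀, ha]
  | mul a b _ _ ha hb => rw [map_mul, ha, hb]

lemma mem_fixingSubgroup_cycField {σ : Γ} :
    σ ∈ (cycField q).fixingSubgroup ↔ ExtCitation.cycloChar (q : ℕ) σ = 1 := by
  constructor
  · intro h
    have h1 := mem_adjoin_fixingSubgroup h
    rw [apply_zetaQ] at h1
    have h2 : zetaQ q ^ ((ExtCitation.cycloChar (q : ℕ) σ : (ZMod (q : ℕ))ˣ) : ZMod (q : ℕ)).val =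
        zetaQ q ^ 1 := by rw [pow_one]; exact h1
    have h3 := (zetaQ_spec q).pow_inj (ZMod.val_lt _) q.2.one_lt h2
    exact Units.ext (by rw [Units.val_one, ← ZMod.natCast_zmod_val (ExtCitation.cycloChar (q : ℕ) σ : ZMod (q : ℕ)), h3, Nat.cast_one])
  · intro h
    refine mem_fixingSubgroup_adjoin_simple ?_
    have : Fact (1 < (q : ℕ)) := ⟨q.2.one_lt⟩
    rw [apply_zetaQ, h, Units.val_one, ZMod.val_one, pow_one]

variable (D : Subgroup (ZMod (q : ℕ))ˣ)

/-- The class of an automorphism in `(ℤ/q)ˣ/D`. -/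
def cyclotomicClass : Γ →* (ZMod (q : ℕ))ˣ ⧸ D :=
  (QuotientGroup.mk' D).comp (ExtCitation.cycloChar (q : ℕ))

lemma cyclotomicClass_surjective : Function.Surjective (cyclotomicClass q D) :=
  (QuotientGroup.mk'_surjective D).comp (S14.cycloChar_surjective (q : ℕ))

/-- The field cut out by `cyclotomicClass`. -/
def subField : IntermediateField ℚ Qb := IntermediateField.fixedField (cyclotomicClass q D).ker

lemma fixingSubgroup_cycField_le : (cycField q).fixingSubgroup ≤ (cyclotomicClass q D).ker :=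
  fun σ hσ => by
    rw [MonoidHom.mem_ker, cyclotomicClass, MonoidHom.comp_apply,
      (mem_fixingSubgroup_cycField q).mp hσ, map_one]

lemma subField_le : subField q D ≤ cycField q := fun _ hx =>
  mem_of_forall_fixingSubgroup _ fun σ hσ => hx ⟨σ, fixingSubgroup_cycField_le q D hσ⟩

instance finiteDimensional_subField : FiniteDimensional ℚ (subField q D) :=
  Module.Finite.of_injective (IntermediateField.inclusion (subField_le q D)).toLinearMap
    (IntermediateField.inclusion (subField_le q D)).toRingHom.injective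

lemma fixingSubgroup_subField : (subField q D).fixingSubgroup = (cyclotomicClass q D).ker := by
  have hopen : IsOpen ((cyclotomicClass q D).ker : Set Γ) :=
    Subgroup.isOpen_mono (fixingSubgroup_cycField_le q D)
      (IntermediateField.fixingSubgroup_isOpen _)
  exact InfiniteGalois.fixingSubgroup_fixedField
    ⟨(cyclotomicClass q D).ker, Subgroup.isClosed_of_isOpen _ hopen⟩

lemma relIndex_subField :
    (subField q D).fixingSubgroup.relIndex (⊥ : IntermediateField ℚ Qb).fixingSubgroup = D.index := by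
  rw [IntermediateField.fixingSubgroup_bot, Subgroup.relIndex_top_right, fixingSubgroup_subField,
    Subgroup.index_ker, MonoidHom.range_eq_top.mpr (cyclotomicClass_surjective q D),
    Subgroup.card_top]
  rfl

/-- Values of ideles of the subfield depend only on the class of the automorphism. -/
lemma apply_globalComp_eq {z : IdeleGroup} (hz : z ∈ idelesOf (subField q D)) {ℓ : Nat.Primes}
    (ι : Emb ℓ) {σ σ' : Γ} (h : cyclotomicClass q D σ = cyclotomicClass q D σ') :
    (z : Raw) ℓ (globalComp ι σ) = (z : Raw) ℓ (globalComp ι σ') := by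
  have hmem : σ⁻¹ * σ' ∈ (subField q D).fixingSubgroup := by
    rw [fixingSubgroup_subField, MonoidHom.mem_ker, map_mul, map_inv, h, inv_mul_cancel]
  have h1 := congrArg (fun g : IdeleGroup => (g : Raw) ℓ (globalComp ι σ)) (hz _ hmem)
  simp only [coe_smul, Raw.smul_apply] at h1
  rw [← globalComp_mul, mul_inv_cancel_left] at h1
  exact h1.symm

section Local

open PadicFields

variable {ℓ : Nat.Primes}

/-- Local automorphisms preserve absolute values. -/
lemma norm_localGal_apply (τ : LocalGal ℓ) (x : PadicAlgCl (ℓ : ℕ)) : ‖τ x‖ = ‖x‖ := by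
  rw [← PadicAlgCl.spectralNorm_eq, ← PadicAlgCl.spectralNorm_eq]
  exact (spectralNorm_eq_of_equiv τ x).symm

lemma resDeg_bot_eq_one :
    ramIdx (⊥ : IntermediateField ℚ_[(ℓ : ℕ)] (PadicAlgCl (ℓ : ℕ))) = 1 ∧
      resDeg (⊥ : IntermediateField ℚ_[(ℓ : ℕ)] (PadicAlgCl (ℓ : ℕ))) = 1 := by
  have h := ramIdx_mul_resDeg (⊥ : IntermediateField ℚ_[(ℓ : ℕ)] (PadicAlgCl (ℓ : ℕ)))
  rw [IntermediateField.finrank_bot] at h
  exact ⟨Nat.eq_one_of_mul_eq_one_right h, Nat.eq_one_of_mul_eq_one_left h⟩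

lemma isPrimitiveRoot_image (ι : Emb ℓ) : IsPrimitiveRoot (ι (zetaQ q)) (q : ℕ) :=
  (zetaQ_spec q).map_of_injective ι.toRingHom.injective

/-- At `ℓ ≠ q` the field `ℚ_ℓ(ζ_q)` lies in a field with absolute values in `ℓ ^ ℤ`, and some local
automorphism raises `ζ_q` to the power `ℓ`. -/
theorem unramified_data (hℓ : ℓ ≠ q) (ι : Emb ℓ) :
    (∀ y ∈ localField ι (cycField q), y ≠ 0 → ∃ i : ℤ, ‖y‖ = ((ℓ : ℕ) : ℝ) ^ i) ∧
      ∃ τ : LocalGal ℓ, τ (ι (zetaQ q)) = ι (zetaQ q) ^ (ℓ : ℕ) := by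
  have hcop : (ℓ : ℕ).Coprime (q : ℕ) :=
    (Nat.coprime_primes ℓ.2 q.2).mpr fun h => hℓ (Subtype.ext h)
  set u := ZMod.unitOfCoprime (ℓ : ℕ) hcop with hu
  set f := orderOf u
  have hf : 0 < f := orderOf_pos u
  have hN : 1 < (ℓ : ℕ) ^ f := Nat.one_lt_pow hf.ne' ℓ.2.one_lt
  have : NeZero ((ℓ : ℕ) ^ f - 1) := ⟨by omega⟩
  have : NeZero (((ℓ : ℕ) ^ f - 1 : ℕ) : PadicAlgCl (ℓ : ℕ)) := ⟨Nat.cast_ne_zero.mpr (by omega)⟩
  obtain ⟨z, hz⟩ := HasEnoughRootsOfUnity.exists_primitiveRoot (PadicAlgCl (ℓ : ℕ)) ((ℓ : ℕ) ^ f - 1)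
  let E : IntermediateField ℚ_[(ℓ : ℕ)] (PadicAlgCl (ℓ : ℕ)) := IntermediateField.adjoin _ {z}
  have : FiniteDimensional ℚ_[(ℓ : ℕ)] E :=
    IntermediateField.adjoin.finiteDimensional (Algebra.IsAlgebraic.isAlgebraic z).isIntegral
  have := hz.intermediateField_adjoin_isCyclotomicExtension ℚ_[(ℓ : ℕ)]
  have : IsGalois ℚ_[(ℓ : ℕ)] E :=
    IsCyclotomicExtension.isGalois {(ℓ : ℕ) ^ f - 1} ℚ_[(ℓ : ℕ)] E
  have hzE : z ∈ E := IntermediateField.mem_adjoin_simple_self _ z
  obtain ⟨hbe, hbf⟩ := resDeg_bot_eq_one (ℓ := ℓ)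
  -- `Gal(E)` embeds in the powers of Frobenius
  have hpow : ∀ g : E ≃ₐ[ℚ_[(ℓ : ℕ)]] E, ∃ i : Fin f,
      (g ⟨z, hzE⟩ : PadicAlgCl (ℓ : ℕ)) = z ^ (ℓ : ℕ) ^ (i : ℕ) := by
    intro g
    obtain ⟨i, hi, h⟩ := exists_eq_pow_of_fixing E
      (bot_le : (⊥ : IntermediateField ℚ_[(ℓ : ℕ)] (PadicAlgCl (ℓ : ℕ))) ≤ E) hf hz hzE
      (hbf ▸ one_dvd f) g fun x hx => by
        obtain ⟨r, hr⟩ := IntermediateField.mem_bot.mp hx
        rw [show x = algebraMap ℚ_[(ℓ : ℕ)] E r from Subtype.ext hr.symm, AlgEquiv.commutes]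
    rw [hbf, Nat.div_one] at hi
    rw [hbf, one_mul] at h
    exact ⟨⟨i, hi⟩, h⟩
  choose φ hφ using hpow
  have hφinj : Function.Injective φ := by
    intro g g' h
    have e : (g ⟨z, hzE⟩ : PadicAlgCl (ℓ : ℕ)) = g' ⟨z, hzE⟩ := by rw [hφ, hφ, h]
    apply AlgEquiv.coe_algHom_injective
    exact (IntermediateField.adjoin.powerBasis
      (Algebra.IsAlgebraic.isAlgebraic z).isIntegral).algHom_ext (Subtype.ext e :)
  have hle : Module.finrank ℚ_[(ℓ : ℕ)] E ≤ f := by
    rw [← IsGalois.card_aut_eq_finrank]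
    simpa using Nat.card_le_card_of_injective φ hφinj
  obtain ⟨he, -, hdeg⟩ := ramIdx_eq_of_finrank_le E
    (bot_le : (⊥ : IntermediateField ℚ_[(ℓ : ℕ)] (PadicAlgCl (ℓ : ℕ))) ≤ E) hf hz hzE
    (hbf ▸ one_dvd f) (by rw [IntermediateField.finrank_bot, hbf, one_mul, Nat.div_one]; exact hle)
  rw [IntermediateField.finrank_bot, hbf, one_mul, Nat.div_one] at hdeg
  rw [hbe] at he
  -- the image of `ζ_q` is a power of `z`
  obtain ⟨k, -, hk⟩ := hz.eq_pow_of_pow_eq_one (show ι (zetaQ q) ^ ((ℓ : ℕ) ^ f - 1) = 1 by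
    have hdvd : (q : ℕ) ∣ (ℓ : ℕ) ^ f - 1 := by
      rw [← ZMod.natCast_eq_zero_iff, Nat.cast_sub hN.le, Nat.cast_one, Nat.cast_pow,
        show ((ℓ : ℕ) : ZMod (q : ℕ)) = (u : ZMod (q : ℕ)) by rw [hu, ZMod.coe_unitOfCoprime],
        ← Units.val_pow_eq_pow_val, pow_orderOf_eq_one, Units.val_one, sub_self]
    obtain ⟨c, hc⟩ := hdvd
    rw [hc, pow_mul, (isPrimitiveRoot_image q ι).pow_eq_one, one_pow])
  have hle' : localField ι (cycField q) ≤ E := by
    rw [cycField, localField_adjoin_simple, IntermediateField.adjoin_simple_le_iff, ← hk]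
    exact pow_mem hzE k
  refine ⟨fun y hy hy0 => ?_, ?_⟩
  · obtain ⟨i, hi⟩ := exists_norm_eq_zpow E (x := ⟨y, hle' hy⟩) fun h =>
      hy0 (congrArg Subtype.val h)
    have hq := norm_q_eq E
    rw [he, pow_one, norm_q] at hq
    refine ⟨-i, ?_⟩
    rw [← hq, inv_zpow, ← zpow_neg, norm_def] at hi
    exact hi
  · have hbij : Function.Bijective φ := (Nat.bijective_iff_injective_and_card φ).mpr
      ⟨hφinj, by rw [IsGalois.card_aut_eq_finrank, hdeg, Nat.card_fin]⟩
    obtain ⟨g, hg⟩ := hbij.2 ⟨1 % f, Nat.mod_lt _ hf⟩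
    refine ⟨g.liftNormal (PadicAlgCl (ℓ : ℕ)), ?_⟩
    have hgz : (g ⟨z, hzE⟩ : PadicAlgCl (ℓ : ℕ)) = z ^ (ℓ : ℕ) := by
      rw [hφ, hg]
      rcases Nat.lt_or_ge 1 f with h1 | h1
      · simp [Nat.mod_eq_of_lt h1]
      · have hf1 : f = 1 := by omega
        have hzN := hz.pow_eq_one
        rw [hf1, pow_one] at hzN
        simp only [hf1, Nat.mod_self, pow_zero, pow_one]
        symm
        calc z ^ (ℓ : ℕ) = z ^ ((ℓ : ℕ) - 1 + 1) := by
              congr 1; have := ℓ.2.one_lt; omega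
          _ = z := by rw [pow_succ, hzN, one_mul]
    have hlift := AlgEquiv.liftNormal_commutes g (PadicAlgCl (ℓ : ℕ)) ⟨z, hzE⟩
    rw [← hk, map_pow, ← pow_mul, mul_comm, pow_mul]
    congr 1
    exact hlift.trans hgz

/-- At `q` the local Galois group is all of `(ℤ/q)ˣ` and every unit of `ℚ_q(ζ_q)` is congruent to
a natural number. -/
theorem ramified_data (ι : Emb q) :
    (∀ y ∈ localField ι (cycField q), ‖y‖ = 1 →
        ∃ c : ℕ, ‖y - (c : PadicAlgCl (q : ℕ))‖ < 1) ∧
      ∀ u : (ZMod (q : ℕ))ˣ, ∃ τ : LocalGal q,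
        τ (ι (zetaQ q)) = ι (zetaQ q) ^ (u : ZMod (q : ℕ)).val := by
  set w := ι (zetaQ q)
  have hw := isPrimitiveRoot_image q ι
  let E : IntermediateField ℚ_[(q : ℕ)] (PadicAlgCl (q : ℕ)) := IntermediateField.adjoin _ {w}
  have : FiniteDimensional ℚ_[(q : ℕ)] E :=
    IntermediateField.adjoin.finiteDimensional (Algebra.IsAlgebraic.isAlgebraic w).isIntegral
  have : NeZero ((q : ℕ) : PadicAlgCl (q : ℕ)) := ⟨Nat.cast_ne_zero.mpr q.2.ne_zero⟩
  have := hw.intermediateField_adjoin_isCyclotomicExtension ℚ_[(q : ℕ)]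
  have : IsGalois ℚ_[(q : ℕ)] E := IsCyclotomicExtension.isGalois {(q : ℕ)} ℚ_[(q : ℕ)] E
  have hwE : w ∈ E := IntermediateField.mem_adjoin_simple_self _ w
  let wE : E := ⟨w, hwE⟩
  have hwE' : IsPrimitiveRoot wE (q : ℕ) :=
    IsPrimitiveRoot.coe_submonoidClass_iff.mp hw
  have hinj := hwE'.autToPow_injective ℚ_[(q : ℕ)]
  have hle : Module.finrank ℚ_[(q : ℕ)] E ≤ (q : ℕ) - 1 := by
    rw [← IsGalois.card_aut_eq_finrank]
    refine (Nat.card_le_card_of_injective _ hinj).trans (le_of_eq ?_)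
    rw [Nat.card_eq_fintype_card, ZMod.card_units]
  -- `(w - 1) ^ (q - 1)` has the absolute value of `q`
  have hnorm : ‖wE - 1‖ ^ ((q : ℕ) - 1) = ‖((q : ℕ) : E)‖ := by
    have hprod : ((q : ℕ) : E) = ∏ μ ∈ primitiveRoots (q : ℕ) E, (1 - μ) := by
      have h := congrArg (Polynomial.eval (1 : E))
        (Polynomial.cyclotomic_eq_prod_X_sub_primitiveRoots hwE')
      rw [Polynomial.eval_one_cyclotomic_prime, Polynomial.eval_prod] at h
      simpa using h
    rw [hprod, norm_prod, Finset.prod_congr rfl (g := fun _ => ‖wE - 1‖), Finset.prod_const,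
      hwE'.card_primitiveRoots, Nat.totient_prime q.2]
    intro μ hμ
    have hμ' := (mem_primitiveRoots q.2.pos).mp hμ
    have hbound : ∀ a b : E, IsPrimitiveRoot a (q : ℕ) → IsPrimitiveRoot b (q : ℕ) →
        ‖b - 1‖ ≤ ‖a - 1‖ := by
      intro a b ha hb
      obtain ⟨i, -, rfl⟩ := ha.eq_pow_of_pow_eq_one hb.pow_eq_one
      have hna : ‖a‖ = 1 := by
        have h := congrArg norm ha.pow_eq_one
        rw [norm_pow, norm_one] at h
        exact (pow_eq_one_iff_of_nonneg (norm_nonneg _) q.2.ne_zero).1 h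
      rw [← geom_sum_mul a i, norm_mul]
      refine mul_le_of_le_one_left (norm_nonneg _) ?_
      exact IsUltrametricDist.norm_sum_le_of_forall_le_of_nonneg zero_le_one fun j _ => by
        rw [norm_pow, hna, one_pow]
    rw [← norm_neg, neg_sub]
    exact le_antisymm (hbound wE μ hwE' hμ') (hbound μ wE hμ' hwE')
  have hne : wE - 1 ≠ 0 := sub_ne_zero.mpr (hwE'.ne_one q.2.one_lt)
  have hlt : ‖wE - 1‖ < 1 := by
    by_contra hge
    have h := hnorm ▸ norm_q_lt_one E
    exact absurd (one_le_pow₀ (not_lt.mp hge)) (not_le.mpr h)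
  obtain ⟨i, hi⟩ := exists_norm_eq_zpow E hne
  have hq1 : 1 ≤ (q : ℕ) - 1 := Nat.le_sub_one_of_lt q.2.one_lt
  have heq : (ramIdx E : ℤ) = i * ((q : ℕ) - 1 : ℕ) := by
    apply zpow_norm_uniformizer_inj E
    rw [zpow_natCast, ← norm_q_eq, ← hnorm, hi, zpow_mul, zpow_natCast]
  have hipos : 0 < i := by
    by_contra hle0
    have h0 : (ramIdx E : ℤ) ≤ 0 := by
      rw [heq]; exact mul_nonpos_of_nonpos_of_nonneg (not_lt.mp hle0) (by positivity)
    have := ramIdx_pos E
    omega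
  have hram : (q : ℕ) - 1 ≤ ramIdx E := by
    have : (((q : ℕ) - 1 : ℕ) : ℤ) ≤ ramIdx E := by
      rw [heq]; exact le_mul_of_one_le_left (by positivity) hipos
    exact_mod_cast this
  have hmul := ramIdx_mul_resDeg E
  have hres : resDeg E = 1 := by
    have := resDeg_pos E
    nlinarith
  have hdeg : Module.finrank ℚ_[(q : ℕ)] E = (q : ℕ) - 1 := by
    rw [hres, mul_one] at hmul
    omega
  refine ⟨fun y hy hy1 => ?_, fun u => ?_⟩
  · have hyE : y ∈ E := by
      rw [cycField, localField_adjoin_simple] at hy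
      exact hy
    let yi : integers E := ⟨⟨y, hyE⟩, (mem_integers E).2 (by rw [norm_def]; exact hy1.le)⟩
    have hcard : Nat.card (residueField E) = (q : ℕ) := by
      rw [natCard_residueField', hres, pow_one]
    have hq0 : ((q : ℕ) : residueField E) = 0 := by
      rw [← map_natCast (IsLocalRing.residue (integers E)), IsLocalRing.residue_eq_zero_iff,
        mem_maximalIdeal_iff]
      simpa using norm_q_lt_one E
    have : CharP (residueField E) (q : ℕ) := (CharP.charP_iff_prime_eq_zero q.2).mpr hq0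
    have hsurj : Function.Surjective (ZMod.castHom (dvd_refl _) (residueField E) : ZMod (q : ℕ) → residueField E) :=
      ((Nat.bijective_iff_injective_and_card _).mpr
        ⟨RingHom.injective _, by rw [Nat.card_zmod, hcard]⟩).surjective
    obtain ⟨c, hc⟩ := hsurj (IsLocalRing.residue (integers E) yi)
    refine ⟨c.val, ?_⟩
    have h0 : IsLocalRing.residue (integers E) (yi - (c.val : integers E)) = 0 := by
      rw [map_sub, map_natCast, ← hc, ← map_natCast (ZMod.castHom (dvd_refl _) (residueField E)),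
        ZMod.natCast_zmod_val, sub_self]
    rw [IsLocalRing.residue_eq_zero_iff, mem_maximalIdeal_iff, norm_def] at h0
    exact h0
  · have hbij : Function.Bijective (hwE'.autToPow ℚ_[(q : ℕ)]) :=
      (Nat.bijective_iff_injective_and_card _).mpr ⟨hinj, by
        rw [IsGalois.card_aut_eq_finrank, hdeg, Nat.card_eq_fintype_card, ZMod.card_units]⟩
    obtain ⟨g, rfl⟩ := hbij.2 u
    refine ⟨g.liftNormal (PadicAlgCl (q : ℕ)), ?_⟩
    exact (AlgEquiv.liftNormal_commutes g (PadicAlgCl (q : ℕ)) wE).trans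
      (congrArg Subtype.val (hwE'.autToPow_spec ℚ_[(q : ℕ)] g).symm)

end Local

end Fermat.Agent.ClassField.Idele
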