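import Fermat.Agent.ClassField.Idele.Cyclotomic.RationalIdeles
import Fermat.Agent.ClassField.Idele.Cyclotomic.Field

/-!
# The residue symbol kills the norms from the auxiliary cyclotomic field

`theta_relNorm_subField`: the symbol `theta q D` vanishes on `N_{F/ℚ}` of the ideles of
`F = subField q D`.  Hence so does `thetaAt k = theta ∘ N_{k/ℚ}` on the norms from any field
containing `k` and `F`.
-/

set_option autoImplicit false

noncomputable section

open IntermediateField

namespace Fermat.Agent.ClassField.Idele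

local notation "Qb" => AlgebraicClosure ℚ
local notation "Γ" => (AlgebraicClosure ℚ ≃ₐ[ℚ] AlgebraicClosure ℚ)

local instance neZeroPrimesVal (q : Nat.Primes) : NeZero (q : ℕ) := ⟨q.2.ne_zero⟩

variable (q : Nat.Primes) (D : Subgroup (ZMod (q : ℕ))ˣ)

/-- A lift of a class to the Galois group. -/
def classLift (a : (ZMod (q : ℕ))ˣ ⧸ D) : Γ := Function.surjInv (cyclotomicClass_surjective q D) a

lemma cyclotomicClass_classLift (a : (ZMod (q : ℕ))ˣ ⧸ D) :
    cyclotomicClass q D (classLift q D a) = a :=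
  Function.surjInv_eq (cyclotomicClass_surjective q D) a

instance fintypeClassQuot : Fintype ((ZMod (q : ℕ))ˣ ⧸ D) := Fintype.ofFinite _

/-- The norm from the subfield is the product over the classes. -/
lemma relNorm_subField_eq_prod {M : Type*} [CommGroup M] [MulDistribMulAction Γ M] {z : M}
    (hz : z ∈ invariants M (subField q D).fixingSubgroup) :
    relNorm ⊥ (subField q D) z = ∏ a, classLift q D a • z := by
  let s : (ZMod (q : ℕ))ˣ ⧸ D → (⊥ : IntermediateField ℚ Qb).fixingSubgroup := fun a =>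
    ⟨classLift q D a, by rw [fixingSubgroup_bot_eq_top]; trivial⟩
  have hbij : Function.Bijective fun a => (QuotientGroup.mk (s a) :
      (⊥ : IntermediateField ℚ Qb).fixingSubgroup ⧸
        (subField q D).fixingSubgroup.subgroupOf (⊥ : IntermediateField ℚ Qb).fixingSubgroup) := by
    have key : ∀ σ τ : (⊥ : IntermediateField ℚ Qb).fixingSubgroup,
        (QuotientGroup.mk σ : _ ⧸ (subField q D).fixingSubgroup.subgroupOf _) = QuotientGroup.mk τ ↔
          cyclotomicClass q D (σ : Γ) = cyclotomicClass q D (τ : Γ) := by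
      intro σ τ
      rw [QuotientGroup.eq, Subgroup.mem_subgroupOf, Subgroup.coe_mul, Subgroup.coe_inv,
        fixingSubgroup_subField, MonoidHom.mem_ker, map_mul, map_inv, inv_mul_eq_one]
    refine ⟨fun a b h => ?_, fun x => ?_⟩
    · have h' := (key _ _).mp h
      rwa [cyclotomicClass_classLift, cyclotomicClass_classLift] at h'
    · obtain ⟨σ, rfl⟩ := QuotientGroup.mk_surjective x
      exact ⟨cyclotomicClass q D σ, (key _ _).mpr (cyclotomicClass_classLift q D _)⟩
  rw [relNorm, cosetProd_eq_finprod hz (Equiv.ofBijective _ hbij) s (fun _ => rfl),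
    finprod_eq_prod_of_fintype]

lemma coe_prod_smul_apply (z : IdeleGroup) {κ : Type*} (T : Finset κ) (g : κ → Γ) {ℓ : Nat.Primes}
    (ι : Emb ℓ) :
    ((((∏ a ∈ T, g a • z : IdeleGroup) : Raw) ℓ ι : (PadicAlgCl (ℓ : ℕ))ˣ) : PadicAlgCl (ℓ : ℕ)) =
      ∏ a ∈ T, (((z : Raw) ℓ (globalComp ι (g a)) : (PadicAlgCl (ℓ : ℕ))ˣ) : PadicAlgCl (ℓ : ℕ)) := by
  classical
  induction T using Finset.induction with
  | empty => simp
  | insert a T ha ih =>
    rw [Finset.prod_insert ha, Finset.prod_insert ha, Subgroup.coe_mul, Raw.mul_apply, Units.val_mul,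
      ih, coe_smul, Raw.smul_apply]

lemma globalComp_classLift_mem_localField {z : IdeleGroup} (hz : z ∈ idelesOf (subField q D))
    {ℓ : Nat.Primes} (ι : Emb ℓ) (σ : Γ) :
    ((z : Raw) ℓ (globalComp ι σ) : PadicAlgCl (ℓ : ℕ)) ∈ localField (globalComp ι σ) (cycField q) :=
  localField_mono _ (subField_le q D) (idele_apply_mem_localField hz _)

/-- A local automorphism acting as `u` on `ζ_q` multiplies the classes by `u`. -/
lemma apply_localComp_eq {z : IdeleGroup} (hz : z ∈ idelesOf (subField q D)) {ℓ : Nat.Primes}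
    (ι : Emb ℓ) (τ : LocalGal ℓ) {σc : Γ} (hτ : τ (ι (zetaQ q)) = ι (σc (zetaQ q))) (σ : Γ) :
    ((z : Raw) ℓ (globalComp ι (σc * σ)) : PadicAlgCl (ℓ : ℕ)) =
      τ ((z : Raw) ℓ (globalComp ι σ)) := by
  rw [← (z.2.1 ℓ τ (globalComp ι σ))]
  refine congrArg Units.val (apply_eq_of_eqOn hz fun x hx => ?_)
  show τ (ι (σ x)) = ι (σc (σ x))
  have hσx : σ x ∈ cycField q := by
    have : Normal ℚ (cycField q) :=
      haveI : IsCyclotomicExtension {(q : ℕ)} ℚ (cycField q) := by
        convert! (zetaQ_spec q).intermediateField_adjoin_isCyclotomicExtension ℚ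
      (IsCyclotomicExtension.isGalois {(q : ℕ)} ℚ (cycField q)).to_normal
    exact (IntermediateField.normal_iff_forall_map_le'.mp this σ) ⟨x, subField_le q D hx, rfl⟩
  generalize σ x = y at hσx
  induction hσx using IntermediateField.adjoin_induction with
  | mem y hy => rw [Set.mem_singleton_iff.mp hy]; exact hτ
  | algebraMap r =>
    rw [AlgHom.commutes, AlgEquiv.commutes, AlgHom.commutes,
      IsScalarTower.algebraMap_apply ℚ ℚ_[(ℓ : ℕ)] (PadicAlgCl (ℓ : ℕ)), AlgEquiv.commutes]
  | add a b _ _ ha hb => rw [map_add, map_add, map_add, map_add, ha, hb]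
  | inv a _ ha => rw [map_inv₀, map_inv₀, map_inv₀, map_inv₀, ha]
  | mul a b _ _ ha hb => rw [map_mul, map_mul, map_mul, map_mul, ha, hb]

/-- The norm idele of the subfield. -/
def subFieldNorm (z : ↥(idelesOf (subField q D))) : ↥(idelesOf ⊥) :=
  ⟨relNorm ⊥ (subField q D) (z : IdeleGroup), relNorm_mem_idelesOf z.2⟩

lemma subFieldNorm_mul (z z' : ↥(idelesOf (subField q D))) :
    subFieldNorm q D (z * z') = subFieldNorm q D z * subFieldNorm q D z' :=
  Subtype.ext (cosetProd_mul _ _)

lemma algebraMap_padicValue_subFieldNorm (z : ↥(idelesOf (subField q D))) {ℓ : Nat.Primes}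
    (ι : Emb ℓ) :
    algebraMap ℚ_[(ℓ : ℕ)] (PadicAlgCl (ℓ : ℕ)) (padicValue ℓ (subFieldNorm q D z) : ℚ_[(ℓ : ℕ)]) =
      ∏ a, (((z : IdeleGroup) : Raw) ℓ (globalComp ι (classLift q D a)) : PadicAlgCl (ℓ : ℕ)) := by
  rw [algebraMap_padicValue ℓ _ ι, ← coe_prod_smul_apply, ← relNorm_subField_eq_prod q D z.2]
  rfl

/-- At `ℓ ≠ q` the local symbol of a norm vanishes. -/
lemma localSymbol_subFieldNorm_of_ne {ℓ : Nat.Primes} (hℓ : ℓ ≠ q)
    (z : ↥(idelesOf (subField q D))) :
    localSymbol q D ℓ (padicValue ℓ (subFieldNorm q D z)) = 1 := by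
  classical
  obtain ⟨ι⟩ := nonempty_emb ℓ
  have hcop : (ℓ : ℕ).Coprime (q : ℕ) :=
    (Nat.coprime_primes ℓ.2 q.2).mpr fun h => hℓ (Subtype.ext h)
  set c : (ZMod (q : ℕ))ˣ ⧸ D := QuotientGroup.mk (ZMod.unitOfCoprime _ hcop) with hc
  let y : (ZMod (q : ℕ))ˣ ⧸ D → PadicAlgCl (ℓ : ℕ) := fun a =>
    (((z : IdeleGroup) : Raw) ℓ (globalComp ι (classLift q D a)) : PadicAlgCl (ℓ : ℕ))
  have hy0 : ∀ a, y a ≠ 0 := fun a => Units.ne_zero _
  choose w hw using fun a => (unramified_data q hℓ (globalComp ι (classLift q D a))).1 (y a)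
    (globalComp_classLift_mem_localField q D z.2 ι _) (hy0 a)
  -- `w` is invariant under multiplication by the class of `ℓ`
  have hwc : ∀ a, w (c * a) = w a := by
    intro a
    obtain ⟨-, τ, hτ⟩ := unramified_data q hℓ ι
    obtain ⟨σc, hσc⟩ := S14.cycloChar_surjective (q : ℕ) (ZMod.unitOfCoprime _ hcop)
    have hτ' : τ (ι (zetaQ q)) = ι (σc (zetaQ q)) := by
      rw [apply_zetaQ, hσc, map_pow, ZMod.coe_unitOfCoprime, hτ, ZMod.val_natCast]
      exact pow_eq_pow_mod _ (isPrimitiveRoot_image q ι).pow_eq_one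
    have hclass : cyclotomicClass q D (σc * classLift q D a) = c * a := by
      rw [map_mul, cyclotomicClass_classLift, cyclotomicClass, MonoidHom.comp_apply, hσc,
        QuotientGroup.mk'_apply]
    have h1 : y (c * a) = τ (y a) := by
      rw [show y (c * a) = (((z : IdeleGroup) : Raw) ℓ (globalComp ι (σc * classLift q D a)) :
        PadicAlgCl (ℓ : ℕ)) from congrArg Units.val (apply_globalComp_eq q D z.2 ι
          (by rw [cyclotomicClass_classLift, hclass]))]
      exact apply_localComp_eq q D z.2 ι τ hτ' _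
    have h2 := congrArg norm h1
    rw [norm_localGal_apply, hw, hw] at h2
    exact zpow_right_injective₀ (by exact_mod_cast ℓ.2.pos) (by exact_mod_cast ℓ.2.ne_one) h2
  have hprim : primeClass q D ℓ = c := by rw [primeClass, dif_pos hcop]
  have hval : (padicValue ℓ (subFieldNorm q D z) : ℚ_[(ℓ : ℕ)]).valuation = -∑ a, w a := by
    have h1 := congrArg norm (algebraMap_padicValue_subFieldNorm q D z ι)
    rw [norm_algebraMap', norm_prod, Finset.prod_congr rfl fun a _ => hw a,
      Padic.norm_eq_zpow_neg_valuation (Units.ne_zero _)] at h1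
    have h2 : ∀ T : Finset ((ZMod (q : ℕ))ˣ ⧸ D),
        ∏ a ∈ T, ((ℓ : ℕ) : ℝ) ^ (w a) = ((ℓ : ℕ) : ℝ) ^ (∑ a ∈ T, w a) := by
      intro T
      induction T using Finset.induction with
      | empty => simp
      | insert a T ha ih =>
        rw [Finset.prod_insert ha, Finset.sum_insert ha, zpow_add₀ (by exact_mod_cast ℓ.2.ne_zero), ih]
    rw [h2] at h1
    have h3 := zpow_right_injective₀ (show (0 : ℝ) < (ℓ : ℕ) by exact_mod_cast ℓ.2.pos)
      (by exact_mod_cast ℓ.2.ne_one) h1
    omega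
  rw [localSymbol_of_ne q D hℓ, hprim, hval, zpow_neg, inv_eq_one]
  -- group the sum along the cosets of `⟨c⟩`
  have hpowinv : ∀ (n : ℕ) a, w (c ^ n * a) = w a := by
    intro n
    induction n with
    | zero => simp
    | succ n ih => intro a; rw [pow_succ', mul_assoc, hwc, ih]
  let Q := ((ZMod (q : ℕ))ˣ ⧸ D) ⧸ Subgroup.zpowers c
  have hfac : ∀ a, w a = w (QuotientGroup.mk a : Q).out := by
    intro a
    have hm : a⁻¹ * (QuotientGroup.mk a : Q).out ∈ Subgroup.zpowers c :=
      QuotientGroup.eq.mp (QuotientGroup.out_eq' _).symm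
    obtain ⟨n, hn⟩ := mem_powers_iff_mem_zpowers.mpr hm
    have hn' : c ^ n * a = (QuotientGroup.mk a : Q).out :=
      calc c ^ n * a = (a⁻¹ * (QuotientGroup.mk a : Q).out) * a := congrArg (· * a) hn
        _ = (QuotientGroup.mk a : Q).out := by
          generalize (QuotientGroup.mk a : Q).out = b
          exact inv_mul_cancel_comm a b
    exact (hpowinv n a).symm.trans (congrArg w hn')
  have : Fintype Q := Fintype.ofFinite _
  have hsum : ∑ a, w a = (orderOf c : ℤ) * ∑ x : Q, w x.out := by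
    rw [← Finset.sum_fiberwise Finset.univ (fun a => (QuotientGroup.mk a : Q)) w, Finset.mul_sum]
    refine Finset.sum_congr rfl fun x _ => ?_
    rw [Finset.sum_congr rfl (g := fun _ => w x.out) fun a ha => by
        rw [hfac a, (Finset.mem_filter.mp ha).2], Finset.sum_const, nsmul_eq_mul]
    congr 1
    norm_cast
    rw [← Fintype.card_zpowers, ← Fintype.card_coe]
    refine Fintype.card_congr
      { toFun := fun a => ⟨x.out⁻¹ * a.1, QuotientGroup.eq.mp
          ((QuotientGroup.out_eq' x).trans (Finset.mem_filter.mp a.2).2.symm)⟩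
        invFun := fun g => ⟨x.out * g.1, Finset.mem_filter.mpr ⟨Finset.mem_univ _, by
          rw [QuotientGroup.mk_mul, QuotientGroup.out_eq', (QuotientGroup.eq_one_iff _).mpr g.2]
          exact mul_one x⟩⟩
        left_inv := fun a => Subtype.ext (mul_inv_cancel_left _ _)
        right_inv := fun g => Subtype.ext (inv_mul_cancel_left _ _) }
  rw [hsum, zpow_mul, zpow_natCast, pow_orderOf_eq_one, one_zpow]

/-- `1 - ζ` normed down to the subfield. -/
def subFieldUniformizer : Qbˣ :=
  relNorm (subField q D) (cycField q)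
    (Units.mk0 (1 - zetaQ q) (sub_ne_zero.mpr ((zetaQ_spec q).ne_one q.2.one_lt).symm))

lemma mem_invariants_units {x : Qbˣ} {K : IntermediateField ℚ Qb} (hx : (x : Qb) ∈ K) :
    x ∈ invariants Qbˣ K.fixingSubgroup := fun _ hσ =>
  Units.ext ((IntermediateField.mem_fixingSubgroup_iff _ _).mp hσ _ hx)

lemma principal_mem_idelesOf {x : Qbˣ} {K : IntermediateField ℚ Qb}
    (hx : x ∈ invariants Qbˣ K.fixingSubgroup) : principal x ∈ idelesOf K := fun σ hσ => by
  rw [smul_principal, hx σ hσ]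

/-- The uniformizer as an idele of the subfield. -/
def uniformizerIdele : ↥(idelesOf (subField q D)) :=
  ⟨principal (subFieldUniformizer q D), principal_mem_idelesOf (cosetProd_mem_invariants
    (mem_invariants_units (sub_mem (one_mem _) (IntermediateField.mem_adjoin_simple_self ℚ _))))⟩

lemma subFieldNorm_uniformizerIdele :
    subFieldNorm q D (uniformizerIdele q D) =
      ratIdele (Units.mk0 ((q : ℕ) : ℚ) (Nat.cast_ne_zero.mpr q.2.ne_zero)) := by
  classical
  refine Subtype.ext ?_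
  show relNorm ⊥ (subField q D) (principal (subFieldUniformizer q D)) = principal _
  rw [relNorm_principal, subFieldUniformizer,
    relNorm_relNorm bot_le (subField_le q D) (mem_invariants_units
      (sub_mem (one_mem _) (IntermediateField.mem_adjoin_simple_self ℚ _)))]
  congr 1
  -- the norm of `1 - ζ` to the rationals
  set x : Qbˣ := Units.mk0 (1 - zetaQ q) (sub_ne_zero.mpr ((zetaQ_spec q).ne_one q.2.one_lt).symm)
  have hxK : x ∈ invariants Qbˣ (cycField q).fixingSubgroup :=
    mem_invariants_units (sub_mem (one_mem _) (IntermediateField.mem_adjoin_simple_self ℚ _))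
  let lift : (ZMod (q : ℕ))ˣ → Γ := Function.surjInv (S14.cycloChar_surjective (q : ℕ))
  have hlift : ∀ u, ExtCitation.cycloChar (q : ℕ) (lift u) = u :=
    fun u => Function.surjInv_eq (S14.cycloChar_surjective (q : ℕ)) u
  let s : (ZMod (q : ℕ))ˣ → (⊥ : IntermediateField ℚ Qb).fixingSubgroup := fun u =>
    ⟨lift u, by rw [fixingSubgroup_bot_eq_top]; trivial⟩
  have key : ∀ σ τ : (⊥ : IntermediateField ℚ Qb).fixingSubgroup,
      (QuotientGroup.mk σ : _ ⧸ (cycField q).fixingSubgroup.subgroupOf _) = QuotientGroup.mk τ ↔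
        ExtCitation.cycloChar (q : ℕ) (σ : Γ) = ExtCitation.cycloChar (q : ℕ) (τ : Γ) := by
    intro σ τ
    rw [QuotientGroup.eq, Subgroup.mem_subgroupOf, Subgroup.coe_mul, Subgroup.coe_inv,
      mem_fixingSubgroup_cycField, map_mul, map_inv, inv_mul_eq_one]
  have hbij : Function.Bijective fun u => (QuotientGroup.mk (s u) :
      (⊥ : IntermediateField ℚ Qb).fixingSubgroup ⧸
        (cycField q).fixingSubgroup.subgroupOf (⊥ : IntermediateField ℚ Qb).fixingSubgroup) := by
    refine ⟨fun a b h => ?_, fun x => ?_⟩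
    · have h' := (key _ _).mp h
      rwa [hlift, hlift] at h'
    · obtain ⟨σ, rfl⟩ := QuotientGroup.mk_surjective x
      exact ⟨ExtCitation.cycloChar (q : ℕ) σ, (key _ _).mpr (hlift _)⟩
  rw [relNorm, cosetProd_eq_finprod hxK (Equiv.ofBijective _ hbij) s (fun _ => rfl),
    finprod_eq_prod_of_fintype]
  refine Units.ext ?_
  have hterm : ∀ u : (ZMod (q : ℕ))ˣ, (((s u : Γ) • x : Qbˣ) : Qb) =
      1 - zetaQ q ^ (u : ZMod (q : ℕ)).val := by
    intro u
    show lift u (1 - zetaQ q) = _
    rw [map_sub, map_one, apply_zetaQ, hlift]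
  rw [Units.coe_prod, Finset.prod_congr rfl fun u _ => hterm u, Units.coe_map, MonoidHom.coe_coe,
    Units.val_mk0, map_natCast]
  have heval := congrArg (Polynomial.eval (1 : Qb))
    (Polynomial.cyclotomic_eq_prod_X_sub_primitiveRoots (zetaQ_spec q))
  rw [Polynomial.eval_one_cyclotomic_prime, Polynomial.eval_prod] at heval
  simp only [Polynomial.eval_sub, Polynomial.eval_X, Polynomial.eval_C] at heval
  rw [heval]
  refine Finset.prod_bij (fun u _ => zetaQ q ^ (u : ZMod (q : ℕ)).val) ?_ ?_ ?_ fun u _ => rfl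
  · intro u _
    exact (mem_primitiveRoots q.2.pos).mpr ((zetaQ_spec q).pow_of_coprime _ (ZMod.val_coe_unit_coprime u))
  · intro a _ b _ h
    exact Units.ext (ZMod.val_injective _ ((zetaQ_spec q).pow_inj (ZMod.val_lt _) (ZMod.val_lt _) h))
  · intro μ hμ
    obtain ⟨i, hi, hicop, rfl⟩ := (zetaQ_spec q).isPrimitiveRoot_iff.mp
      ((mem_primitiveRoots q.2.pos).mp hμ)
    exact ⟨ZMod.unitOfCoprime i hicop, Finset.mem_univ _, by
      rw [ZMod.coe_unitOfCoprime, ZMod.val_natCast, Nat.mod_eq_of_lt hi]⟩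

/-- At `q`, the local symbol of a norm of valuation zero vanishes. -/
lemma localSymbol_subFieldNorm_self_of_valuation_eq_zero (z : ↥(idelesOf (subField q D)))
    (hv : (padicValue q (subFieldNorm q D z) : ℚ_[(q : ℕ)]).valuation = 0) :
    localSymbol q D q (padicValue q (subFieldNorm q D z)) = 1 := by
  classical
  obtain ⟨ι⟩ := nonempty_emb q
  obtain ⟨hres, hfull⟩ := ramified_data q ι
  let y : (ZMod (q : ℕ))ˣ ⧸ D → PadicAlgCl (q : ℕ) := fun a =>
    (((z : IdeleGroup) : Raw) q (globalComp ι (classLift q D a)) : PadicAlgCl (q : ℕ))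
  have hτ : ∀ a, ∃ τ : LocalGal q, y a = τ (y 1) := by
    intro a
    obtain ⟨τ, hτ⟩ := hfull (ExtCitation.cycloChar (q : ℕ) (classLift q D a))
    refine ⟨τ, ?_⟩
    have hτ' : τ (ι (zetaQ q)) = ι (classLift q D a (zetaQ q)) := by
      rw [apply_zetaQ, map_pow, hτ]
    rw [show y a = (((z : IdeleGroup) : Raw) q (globalComp ι (classLift q D a * classLift q D 1)) :
      PadicAlgCl (q : ℕ)) from congrArg Units.val (apply_globalComp_eq q D z.2 ι (by
        rw [map_mul, cyclotomicClass_classLift, cyclotomicClass_classLift, mul_one]))]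
    exact apply_localComp_eq q D z.2 ι τ hτ' _
  choose τ hτy using hτ
  set x := padicValue q (subFieldNorm q D z) with hx
  have hxprod : algebraMap ℚ_[(q : ℕ)] (PadicAlgCl (q : ℕ)) (x : ℚ_[(q : ℕ)]) = ∏ a, y a :=
    algebraMap_padicValue_subFieldNorm q D z ι
  have hy1 : ‖y 1‖ = 1 := by
    have h := congrArg norm hxprod
    rw [norm_algebraMap', norm_prod, Finset.prod_congr rfl (g := fun _ => ‖y 1‖) (fun a _ => by
      rw [hτy a, norm_localGal_apply]), Finset.prod_const, Finset.card_univ,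
      Padic.norm_eq_zpow_neg_valuation x.ne_zero, hv, neg_zero, zpow_zero] at h
    exact (pow_eq_one_iff_of_nonneg (norm_nonneg _) Fintype.card_ne_zero).1 h.symm
  have hyloc : y 1 ∈ localField ι (cycField q) := by
    have h := globalComp_classLift_mem_localField q D z.2 ι 1
    rw [globalComp_one] at h
    have h2 : y 1 = (((z : IdeleGroup) : Raw) q ι : PadicAlgCl (q : ℕ)) := by
      rw [show y 1 = (((z : IdeleGroup) : Raw) q (globalComp ι 1) : PadicAlgCl (q : ℕ)) from
        congrArg Units.val (apply_globalComp_eq q D z.2 ι (by rw [cyclotomicClass_classLift, map_one])),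
        globalComp_one]
    rwa [h2]
  obtain ⟨c, hc⟩ := hres _ hyloc hy1
  have hclose : ∀ T : Finset ((ZMod (q : ℕ))ˣ ⧸ D),
      ‖∏ a ∈ T, y a - (c : PadicAlgCl (q : ℕ)) ^ T.card‖ < 1 := by
    have hcn : ‖(c : PadicAlgCl (q : ℕ))‖ ≤ 1 := norm_le_one_of_isIntegral (isIntegral_natCast _)
    have hone : ∀ a, ‖y a‖ = 1 := fun a => by rw [hτy a, norm_localGal_apply, hy1]
    intro T
    induction T using Finset.induction with
    | empty => simp
    | insert a T ha ih =>
      rw [Finset.prod_insert ha, Finset.card_insert_of_notMem ha, pow_succ']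
      rw [show y a * ∏ b ∈ T, y b - (c : PadicAlgCl (q : ℕ)) * (c : PadicAlgCl (q : ℕ)) ^ T.card =
        y a * (∏ b ∈ T, y b - (c : PadicAlgCl (q : ℕ)) ^ T.card) +
          (y a - c) * (c : PadicAlgCl (q : ℕ)) ^ T.card by ring]
      refine lt_of_le_of_lt (IsUltrametricDist.norm_add_le_max _ _) (max_lt ?_ ?_)
      · rw [norm_mul, hone, one_mul]; exact ih
      · rw [norm_mul, norm_pow]
        refine lt_of_le_of_lt (mul_le_of_le_one_right (norm_nonneg _) (pow_le_one₀ (norm_nonneg _) hcn)) ?_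
        rw [hτy a, show τ a (y 1) - (c : PadicAlgCl (q : ℕ)) = τ a (y 1 - c) by rw [map_sub, map_natCast],
          norm_localGal_apply]
        exact hc
  have h := hclose Finset.univ
  rw [← hxprod, ← map_natCast (algebraMap ℚ_[(q : ℕ)] (PadicAlgCl (q : ℕ))), ← map_pow, ← map_sub,
    norm_algebraMap', Finset.card_univ] at h
  rw [localSymbol_self, selfSymbol_apply, QuotientGroup.mk_inv, inv_eq_one, QuotientGroup.eq_one_iff]
  -- the residue of `x` is `c ^ index`
  have hxu : ((unitResidue x : (ZMod (q : ℕ))ˣ) : ZMod (q : ℕ)) =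
      (c : ZMod (q : ℕ)) ^ Fintype.card ((ZMod (q : ℕ))ˣ ⧸ D) := by
    show PadicInt.toZMod ((PadicInt.mkUnits (norm_unitPart x) : ℤ_[(q : ℕ)]ˣ) : ℤ_[(q : ℕ)]) = _
    have h0 : PadicInt.toZMod (((PadicInt.mkUnits (norm_unitPart x) : ℤ_[(q : ℕ)]ˣ) : ℤ_[(q : ℕ)]) -
        (c : ℤ_[(q : ℕ)]) ^ Fintype.card ((ZMod (q : ℕ))ˣ ⧸ D)) = 0 := by
      rw [← RingHom.mem_ker, PadicInt.ker_toZMod, IsLocalRing.mem_maximalIdeal, PadicInt.mem_nonunits,
        PadicInt.norm_def, PadicInt.coe_sub, PadicInt.coe_pow, PadicInt.coe_natCast, PadicInt.mkUnits_eq,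
        hv, neg_zero, zpow_zero, mul_one]
      exact h
    rwa [map_sub, map_pow, map_natCast, sub_eq_zero] at h0
  have hc0 : IsUnit (c : ZMod (q : ℕ)) := by
    have h2 := (unitResidue x).isUnit
    rw [hxu, isUnit_pow_iff Fintype.card_ne_zero] at h2
    exact h2
  have hpow : unitResidue x = hc0.unit ^ D.index := Units.ext (by
    rw [hxu, Units.val_pow_eq_pow_val, IsUnit.unit_spec, Subgroup.index, Nat.card_eq_fintype_card])
  rw [hpow]
  exact D.pow_index_mem _

/-- **The symbol kills norms from the auxiliary field.** -/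
theorem theta_relNorm_subField (z : ↥(idelesOf (subField q D))) :
    theta q D (subFieldNorm q D z) = 1 := by
  set v := (padicValue q (subFieldNorm q D z) : ℚ_[(q : ℕ)]).valuation with hv_def
  let φ : ↥(idelesOf (subField q D)) →* (ZMod (q : ℕ))ˣ ⧸ D :=
    (theta q D).comp (MonoidHom.mk' (subFieldNorm q D) (subFieldNorm_mul q D))
  let ψ : ↥(idelesOf (subField q D)) →* ℚ_[(q : ℕ)]ˣ :=
    (padicValue q).comp (MonoidHom.mk' (subFieldNorm q D) (subFieldNorm_mul q D))
  have hπ : φ (uniformizerIdele q D) = 1 := by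
    show theta q D (subFieldNorm q D (uniformizerIdele q D)) = 1
    rw [subFieldNorm_uniformizerIdele]
    exact theta_ratIdele_prime q D _ q rfl
  set z' := z * uniformizerIdele q D ^ (-v)
  have hz' : φ z' = φ z := by rw [map_mul, map_zpow, hπ, one_zpow, mul_one]
  have hv' : (padicValue q (subFieldNorm q D z') : ℚ_[(q : ℕ)]).valuation = 0 := by
    change ((ψ z' : ℚ_[(q : ℕ)]ˣ) : ℚ_[(q : ℕ)]).valuation = 0
    rw [map_mul, map_zpow, Units.val_mul, Units.val_zpow_eq_zpow_val,
      Padic.valuation_mul (Units.ne_zero _) (zpow_ne_zero _ (Units.ne_zero _)), Padic.valuation_zpow,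
      show (ψ (uniformizerIdele q D) : ℚ_[(q : ℕ)]) = ((q : ℕ) : ℚ_[(q : ℕ)]) by
        show (padicValue q (subFieldNorm q D (uniformizerIdele q D)) : ℚ_[(q : ℕ)]) = _
        rw [subFieldNorm_uniformizerIdele, padicValue_ratIdele, Units.val_mk0, Rat.cast_natCast],
      Padic.valuation_p]
    change v + -v * 1 = 0
    ring
  rw [show theta q D (subFieldNorm q D z) = φ z from rfl, ← hz',
    show φ z' = theta q D (subFieldNorm q D z') from rfl, theta_apply]
  refine finprod_eq_one_of_forall_eq_one fun ℓ => ?_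
  by_cases hℓ : ℓ = q
  · subst hℓ
    exact localSymbol_subFieldNorm_self_of_valuation_eq_zero ℓ D z' hv'
  · exact localSymbol_subFieldNorm_of_ne q D hℓ z'

/-- The symbol on the ideles of a number field. -/
def thetaAt (k : IntermediateField ℚ Qb) [FiniteDimensional ℚ k] :
    ↥(idelesOf k) →* (ZMod (q : ℕ))ˣ ⧸ D :=
  (theta q D).comp
    (MonoidHom.mk' (fun f => (⟨relNorm ⊥ k (f : IdeleGroup), relNorm_mem_idelesOf f.2⟩ : ↥(idelesOf ⊥)))
      fun _ _ => Subtype.ext (cosetProd_mul _ _))

/-- The symbol of `k` kills principal ideles. -/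
theorem thetaAt_principal (hD : (-1 : (ZMod (q : ℕ))ˣ) ∈ D) (k : IntermediateField ℚ Qb)
    [FiniteDimensional ℚ k] (x : Qbˣ) (hx : principal x ∈ idelesOf k) :
    thetaAt q D k ⟨principal x, hx⟩ = 1 := by
  show theta q D ⟨relNorm ⊥ k (principal x), _⟩ = 1
  have hfix : ∀ σ : Γ, σ • (relNorm ⊥ k x) = relNorm ⊥ k x := fun σ => principal_injective (by
    rw [← smul_principal, ← relNorm_principal]
    exact relNorm_mem_idelesOf hx σ (by rw [fixingSubgroup_bot_eq_top]; trivial))
  have hmem : ((relNorm ⊥ k x : Qbˣ) : Qb) ∈ (⊥ : IntermediateField ℚ Qb) :=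
    mem_of_forall_fixingSubgroup _ fun σ _ => congrArg Units.val (hfix σ)
  obtain ⟨r, hr⟩ := IntermediateField.mem_bot.mp hmem
  have hr0 : r ≠ 0 := by
    rintro rfl
    rw [map_zero] at hr
    exact (relNorm ⊥ k x : Qbˣ).ne_zero hr.symm
  have hfin := theta_ratIdele q D hD (Units.mk0 r hr0)
  convert hfin using 2
  refine Subtype.ext ?_
  show relNorm ⊥ k (principal x) = principal _
  rw [relNorm_principal]
  exact congrArg principal (Units.ext hr.symm)

/-- The symbol of `k` kills the norms from any `L ⊇ k, F`. -/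
theorem thetaAt_relNorm {k L : IntermediateField ℚ Qb} [FiniteDimensional ℚ k]
    [FiniteDimensional ℚ L] (hkL : k ≤ L) (hFL : subField q D ≤ L) {z : IdeleGroup}
    (hz : z ∈ idelesOf L) :
    thetaAt q D k ⟨relNorm k L z, relNorm_mem_idelesOf hz⟩ = 1 := by
  show theta q D ⟨relNorm ⊥ k (relNorm k L z), _⟩ = 1
  have h := theta_relNorm_subField q D ⟨relNorm (subField q D) L z, relNorm_mem_idelesOf hz⟩
  convert h using 2
  refine Subtype.ext ?_
  show relNorm ⊥ k (relNorm k L z) = relNorm ⊥ (subField q D) (relNorm (subField q D) L z)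
  rw [relNorm_relNorm bot_le hkL hz, relNorm_relNorm bot_le hFL hz]

end Fermat.Agent.ClassField.Idele
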