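import Fermat.Agent.ClassField.Idele.LocalFields
import Fermat.Agent.ClassField.Idele.CosetProd

/-!
# Ideles of the rationals and the idelic residue symbol

An idele of `ℚ` has at each `ℓ` one value in `ℚ_ℓˣ`.  For a prime `q` and a subgroup `D` of
`(ℤ/q)ˣ` containing `-1`, `theta` is the product of the classes of `ℓ ^ v_ℓ` for `ℓ ≠ q` times the
inverse of the class of the unit part at `q`; it is trivial on principal ideles.
-/

set_option autoImplicit false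

noncomputable section

open IntermediateField

namespace Fermat.Agent.ClassField.Idele

local notation "Qb" => AlgebraicClosure ℚ
local notation "Γ" => (AlgebraicClosure ℚ ≃ₐ[ℚ] AlgebraicClosure ℚ)

lemma fixingSubgroup_bot_eq_top : (⊥ : IntermediateField ℚ Qb).fixingSubgroup = ⊤ :=
  IntermediateField.fixingSubgroup_bot

/-- An idele of `ℚ` takes one value at each prime, and that value is a `ℚ_ℓ`-number. -/
lemma exists_padic_value {f : IdeleGroup} (hf : f ∈ idelesOf ⊥) (ℓ : Nat.Primes) :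
    ∃ x : ℚ_[(ℓ : ℕ)]ˣ, ∀ ι : Emb ℓ,
      algebraMap ℚ_[(ℓ : ℕ)] (PadicAlgCl (ℓ : ℕ)) x = ((f : Raw) ℓ ι : PadicAlgCl (ℓ : ℕ)) := by
  obtain ⟨ι₀⟩ := nonempty_emb ℓ
  have hmem := idele_apply_mem_localField hf ι₀
  have hbot : localField ι₀ (⊥ : IntermediateField ℚ Qb) = ⊥ := by
    refine le_antisymm (IntermediateField.adjoin_le_iff.mpr ?_) bot_le
    rintro _ ⟨x, hx, rfl⟩
    obtain ⟨r, rfl⟩ := IntermediateField.mem_bot.mp hx
    rw [AlgHom.commutes, IsScalarTower.algebraMap_apply ℚ ℚ_[(ℓ : ℕ)] (PadicAlgCl (ℓ : ℕ))]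
    exact IntermediateField.algebraMap_mem _ _
  rw [hbot, IntermediateField.mem_bot] at hmem
  obtain ⟨x, hx⟩ := hmem
  have hx0 : x ≠ 0 := by
    rintro rfl
    rw [map_zero] at hx
    exact ((f : Raw) ℓ ι₀).ne_zero hx.symm
  refine ⟨Units.mk0 x hx0, fun ι => hx.trans ?_⟩
  obtain ⟨σ, rfl⟩ := exists_globalComp_eq ι₀ ι
  have h := hf σ (by rw [fixingSubgroup_bot_eq_top]; trivial)
  exact (congrArg (fun g : IdeleGroup => (((g : Raw) ℓ ι₀ : (PadicAlgCl (ℓ : ℕ))ˣ) :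
    PadicAlgCl (ℓ : ℕ))) h).symm

/-- The value at `ℓ` of an idele of `ℚ`. -/
def padicValue (ℓ : Nat.Primes) : ↥(idelesOf ⊥) →* ℚ_[(ℓ : ℕ)]ˣ where
  toFun f := (exists_padic_value f.2 ℓ).choose
  map_one' := by
    obtain ⟨ι⟩ := nonempty_emb ℓ
    refine Units.ext ((algebraMap ℚ_[(ℓ : ℕ)] (PadicAlgCl (ℓ : ℕ))).injective ?_)
    rw [(exists_padic_value (one_mem _) ℓ).choose_spec ι]
    simp
  map_mul' f g := by
    obtain ⟨ι⟩ := nonempty_emb ℓ
    refine Units.ext ((algebraMap ℚ_[(ℓ : ℕ)] (PadicAlgCl (ℓ : ℕ))).injective ?_)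
    rw [Units.val_mul, map_mul, (exists_padic_value (mul_mem f.2 g.2) ℓ).choose_spec ι,
      (exists_padic_value f.2 ℓ).choose_spec ι, (exists_padic_value g.2 ℓ).choose_spec ι]
    rfl

lemma algebraMap_padicValue (ℓ : Nat.Primes) (f : ↥(idelesOf ⊥)) (ι : Emb ℓ) :
    algebraMap ℚ_[(ℓ : ℕ)] (PadicAlgCl (ℓ : ℕ)) (padicValue ℓ f : ℚ_[(ℓ : ℕ)]) =
      (((f : IdeleGroup) : Raw) ℓ ι : PadicAlgCl (ℓ : ℕ)) :=
  (exists_padic_value f.2 ℓ).choose_spec ι

lemma norm_padicValue (ℓ : Nat.Primes) (f : ↥(idelesOf ⊥)) (ι : Emb ℓ) :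
    ‖(((f : IdeleGroup) : Raw) ℓ ι : PadicAlgCl (ℓ : ℕ))‖ =
      ‖(padicValue ℓ f : ℚ_[(ℓ : ℕ)])‖ := by
  rw [← algebraMap_padicValue ℓ f ι, norm_algebraMap']

section Symbol

variable {q : ℕ} [Fact q.Prime]

/-- The valuation as a homomorphism. -/
def valHom (p : ℕ) [Fact p.Prime] : ℚ_[p]ˣ →* Multiplicative ℤ where
  toFun x := Multiplicative.ofAdd (x : ℚ_[p]).valuation
  map_one' := by simp
  map_mul' x y := by simp [Padic.valuation_mul x.ne_zero y.ne_zero]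

lemma norm_unitPart (x : ℚ_[q]ˣ) :
    ‖(x : ℚ_[q]) * (q : ℚ_[q]) ^ (-(x : ℚ_[q]).valuation)‖ = 1 := by
  rw [norm_mul, norm_zpow, Padic.norm_p, Padic.norm_eq_zpow_neg_valuation x.ne_zero, inv_zpow,
    ← zpow_neg, neg_neg, ← zpow_add₀ (Nat.cast_ne_zero.mpr (Fact.out : q.Prime).ne_zero),
    neg_add_cancel, zpow_zero]

/-- The unit part of a `q`-adic number modulo `q`. -/
def unitResidue : ℚ_[q]ˣ →* (ZMod q)ˣ where
  toFun x := Units.map (PadicInt.toZMod (p := q)).toMonoidHom (PadicInt.mkUnits (norm_unitPart x))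
  map_one' := by
    rw [← map_one (Units.map (PadicInt.toZMod (p := q)).toMonoidHom)]
    congr 1
    refine Units.ext (PadicInt.ext ?_)
    simp [PadicInt.mkUnits_eq]
  map_mul' x y := by
    rw [← map_mul]
    congr 1
    refine Units.ext (PadicInt.ext ?_)
    simp only [Units.val_mul, PadicInt.coe_mul, PadicInt.mkUnits_eq,
      Padic.valuation_mul x.ne_zero y.ne_zero, neg_add,
      zpow_add₀ (show (q : ℚ_[q]) ≠ 0 from Nat.cast_ne_zero.mpr (Fact.out : q.Prime).ne_zero)]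
    ring

lemma unitResidue_natCast {a : ℕ} (ha : a ≠ 0) (hqa : ¬ q ∣ a) (x : ℚ_[q]ˣ)
    (hx : (x : ℚ_[q]) = a) : (unitResidue x : ZMod q) = a := by
  have hv : (x : ℚ_[q]).valuation = 0 := by
    rw [hx, Padic.valuation_natCast, padicValNat.eq_zero_of_not_dvd hqa, Nat.cast_zero]
  have h : ((PadicInt.mkUnits (norm_unitPart x) : ℤ_[q]ˣ) : ℤ_[q]) = (a : ℤ_[q]) := by
    refine PadicInt.ext ?_
    rw [PadicInt.mkUnits_eq, hv, neg_zero, zpow_zero, mul_one, hx, PadicInt.coe_natCast]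
  show PadicInt.toZMod ((PadicInt.mkUnits (norm_unitPart x) : ℤ_[q]ˣ) : ℤ_[q]) = a
  rw [h, map_natCast]

lemma unitResidue_self (x : ℚ_[q]ˣ) (hx : (x : ℚ_[q]) = q) : unitResidue x = 1 := by
  have hv : (x : ℚ_[q]).valuation = 1 := by rw [hx]; exact Padic.valuation_p
  have h : PadicInt.mkUnits (norm_unitPart x) = 1 := by
    refine Units.ext (PadicInt.ext ?_)
    rw [PadicInt.mkUnits_eq, hv, hx, zpow_neg_one,
      mul_inv_cancel₀ (Nat.cast_ne_zero.mpr (Fact.out : q.Prime).ne_zero)]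
    simp
  show Units.map _ (PadicInt.mkUnits (norm_unitPart x)) = 1
  rw [h, map_one]

end Symbol

variable (q : Nat.Primes) (D : Subgroup (ZMod (q : ℕ))ˣ)

/-- The class of a prime `ℓ ≠ q` in `(ℤ/q)ˣ/D`. -/
def primeClass (ℓ : Nat.Primes) : (ZMod (q : ℕ))ˣ ⧸ D :=
  if h : (ℓ : ℕ).Coprime (q : ℕ) then QuotientGroup.mk (ZMod.unitOfCoprime _ h) else 1

lemma primeClass_self : primeClass q D q = 1 := by
  rw [primeClass, dif_neg]
  rw [Nat.coprime_self]
  exact q.2.ne_one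

/-- The local factor at `q`. -/
def selfSymbol : ℚ_[(q : ℕ)]ˣ →* (ZMod (q : ℕ))ˣ ⧸ D where
  toFun x := QuotientGroup.mk ((unitResidue x)⁻¹)
  map_one' := by simp
  map_mul' x y := by
    rw [← QuotientGroup.mk_mul]
    congr 1
    rw [map_mul, mul_inv]

lemma selfSymbol_apply (x : ℚ_[(q : ℕ)]ˣ) :
    selfSymbol q D x = QuotientGroup.mk ((unitResidue x)⁻¹) := rfl

/-- The local factor of the symbol. -/
def localSymbol (ℓ : Nat.Primes) : ℚ_[(ℓ : ℕ)]ˣ →* (ZMod (q : ℕ))ˣ ⧸ D :=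
  if h : ℓ = q then
    Eq.ndrec (motive := fun x : Nat.Primes => ℚ_[(x : ℕ)]ˣ →* (ZMod (q : ℕ))ˣ ⧸ D)
      (selfSymbol q D) h.symm
  else (zpowersHom _ (primeClass q D ℓ)).comp (valHom (ℓ : ℕ))

lemma localSymbol_self :
    localSymbol q D q = selfSymbol q D := by
  rw [localSymbol, dif_pos rfl]

lemma localSymbol_of_ne {ℓ : Nat.Primes} (h : ℓ ≠ q) (x : ℚ_[(ℓ : ℕ)]ˣ) :
    localSymbol q D ℓ x = primeClass q D ℓ ^ (x : ℚ_[(ℓ : ℕ)]).valuation := by
  rw [localSymbol, dif_neg h]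
  rfl

lemma finite_mulSupport_localSymbol (f : ↥(idelesOf ⊥)) :
    (Function.mulSupport fun ℓ => localSymbol q D ℓ (padicValue ℓ f)).Finite := by
  obtain ⟨T, hT⟩ := (f : IdeleGroup).2.2.2
  refine (T.finite_toSet.insert q).subset fun ℓ hℓ => ?_
  by_contra hcon
  simp only [Set.mem_insert_iff, Finset.mem_coe, not_or] at hcon
  refine hℓ ?_
  show localSymbol q D ℓ (padicValue ℓ f) = 1
  obtain ⟨ι⟩ := nonempty_emb ℓ
  have h1 := hT ℓ hcon.2 ι
  rw [norm_padicValue] at h1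
  rw [Padic.norm_eq_zpow_neg_valuation (Units.ne_zero _),
    zpow_eq_one_iff_right₀ (Nat.cast_nonneg _) (by exact_mod_cast ℓ.2.ne_one)] at h1
  rw [localSymbol_of_ne q D hcon.1, neg_eq_zero.mp h1, zpow_zero]

/-- The symbol on the ideles of `ℚ`. -/
def theta : ↥(idelesOf ⊥) →* (ZMod (q : ℕ))ˣ ⧸ D where
  toFun f := ∏ᶠ ℓ, localSymbol q D ℓ (padicValue ℓ f)
  map_one' := by simp
  map_mul' f g := by
    simp only [map_mul]
    exact finprod_mul_distrib (finite_mulSupport_localSymbol q D f)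
      (finite_mulSupport_localSymbol q D g)

lemma theta_apply (f : ↥(idelesOf ⊥)) :
    theta q D f = ∏ᶠ ℓ, localSymbol q D ℓ (padicValue ℓ f) := rfl

/-- The principal ideles of rational numbers. -/
def ratIdele : ℚˣ →* ↥(idelesOf ⊥) where
  toFun r := ⟨principal (Units.map (algebraMap ℚ Qb : ℚ →* Qb) r), fun σ _ => by
    rw [smul_principal]
    congr 1
    exact Units.ext (σ.commutes r)⟩
  map_one' := Subtype.ext (by simp)
  map_mul' a b := Subtype.ext (by simp)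

lemma padicValue_ratIdele (r : ℚˣ) (ℓ : Nat.Primes) :
    (padicValue ℓ (ratIdele r) : ℚ_[(ℓ : ℕ)]) = ((r : ℚ) : ℚ_[(ℓ : ℕ)]) := by
  obtain ⟨ι⟩ := nonempty_emb ℓ
  apply (algebraMap ℚ_[(ℓ : ℕ)] (PadicAlgCl (ℓ : ℕ))).injective
  rw [algebraMap_padicValue ℓ _ ι, map_ratCast]
  show ι (algebraMap ℚ Qb r) = _
  rw [AlgHom.commutes, eq_ratCast]

/-- The symbol is trivial on a prime. -/
lemma theta_ratIdele_prime (r : ℚˣ) (ℓ₀ : Nat.Primes) (hr : (r : ℚ) = ((ℓ₀ : ℕ) : ℚ)) :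
    theta q D (ratIdele r) = 1 := by
  have hval : ∀ ℓ : Nat.Primes, (padicValue ℓ (ratIdele r) : ℚ_[(ℓ : ℕ)]) = ((ℓ₀ : ℕ) : ℚ_[(ℓ : ℕ)]) :=
    fun ℓ => by rw [padicValue_ratIdele, hr, Rat.cast_natCast]
  have hother : ∀ ℓ : Nat.Primes, ℓ ≠ ℓ₀ → ℓ ≠ q →
      localSymbol q D ℓ (padicValue ℓ (ratIdele r)) = 1 := fun ℓ h1 h2 => by
    rw [localSymbol_of_ne q D h2, hval, Padic.valuation_natCast,
      padicValNat_primes (fun h => h1 (Subtype.ext h)), Nat.cast_zero, zpow_zero]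
  by_cases h0 : ℓ₀ = q
  · rw [theta_apply, finprod_eq_single _ q (fun ℓ hℓ => hother ℓ (h0 ▸ hℓ) hℓ), localSymbol_self,
      selfSymbol_apply, unitResidue_self _ (by rw [hval, h0]), inv_one, QuotientGroup.mk_one]
  · rw [theta_apply, finprod_eq_prod_of_mulSupport_subset (s := {q, ℓ₀})]
    · rw [Finset.prod_pair (Ne.symm h0), localSymbol_self, localSymbol_of_ne q D h0, hval,
        Padic.valuation_natCast, padicValNat_self, Nat.cast_one, zpow_one,
        selfSymbol_apply, QuotientGroup.mk_inv]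
      have hcop : (ℓ₀ : ℕ).Coprime (q : ℕ) :=
        (Nat.coprime_primes ℓ₀.2 q.2).mpr fun h => h0 (Subtype.ext h)
      rw [inv_mul_eq_one, primeClass, dif_pos hcop]
      congr 1
      refine Units.ext ?_
      rw [ZMod.coe_unitOfCoprime]
      exact unitResidue_natCast ℓ₀.2.ne_zero (fun hd => h0 (Subtype.ext
        ((Nat.prime_dvd_prime_iff_eq q.2 ℓ₀.2).mp hd).symm)) _ (hval q)
    · intro ℓ hℓ
      simp only [Finset.coe_insert, Finset.coe_singleton, Set.mem_insert_iff, Set.mem_singleton_iff]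
      by_contra hcon
      push Not at hcon
      exact hℓ (hother ℓ hcon.2 hcon.1)

/-- The symbol is trivial on `-1`. -/
lemma theta_ratIdele_neg_one (hD : (-1 : (ZMod (q : ℕ))ˣ) ∈ D) :
    theta q D (ratIdele (-1)) = 1 := by
  rw [theta_apply]
  refine finprod_eq_one_of_forall_eq_one fun ℓ => ?_
  have hval : (padicValue ℓ (ratIdele (-1)) : ℚ_[(ℓ : ℕ)]) = -1 := by
    rw [padicValue_ratIdele]; simp
  by_cases h : ℓ = q
  · subst h
    rw [localSymbol_self, selfSymbol_apply, QuotientGroup.eq_one_iff, inv_mem_iff]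
    have hu : padicValue ℓ (ratIdele (-1)) = -1 := Units.ext (by rw [hval]; simp)
    have hres : unitResidue (-1 : ℚ_[(ℓ : ℕ)]ˣ) = -1 := by
      have hv : ((-1 : ℚ_[(ℓ : ℕ)]ˣ) : ℚ_[(ℓ : ℕ)]).valuation = 0 := by
        rw [Units.val_neg, Units.val_one, show (-1 : ℚ_[(ℓ : ℕ)]) = ((-1 : ℤ) : ℚ_[(ℓ : ℕ)]) by simp,
          Padic.valuation_intCast]
        simp [padicValInt]
      have h1 : PadicInt.mkUnits (norm_unitPart (-1 : ℚ_[(ℓ : ℕ)]ˣ)) = -1 := by
        refine Units.ext (PadicInt.ext ?_)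
        rw [PadicInt.mkUnits_eq, hv]
        simp
      show Units.map _ (PadicInt.mkUnits (norm_unitPart (-1 : ℚ_[(ℓ : ℕ)]ˣ))) = -1
      rw [h1]
      ext
      simp
    rw [hu, hres]
    exact hD
  · rw [localSymbol_of_ne q D h, hval, show (-1 : ℚ_[(ℓ : ℕ)]) = ((-1 : ℤ) : ℚ_[(ℓ : ℕ)]) by simp,
      Padic.valuation_intCast]
    simp [padicValInt]

/-- The symbol is trivial on rational principal ideles. -/
theorem theta_ratIdele (hD : (-1 : (ZMod (q : ℕ))ˣ) ∈ D) (r : ℚˣ) :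
    theta q D (ratIdele r) = 1 := by
  let φ : ℚˣ →* (ZMod (q : ℕ))ˣ ⧸ D := (theta q D).comp ratIdele
  have hnat : ∀ n : ℕ, ∀ hn : (n : ℚ) ≠ 0, φ (Units.mk0 (n : ℚ) hn) = 1 := by
    intro n
    induction n using Nat.recOnMul with
    | zero => intro hn; exact absurd Nat.cast_zero hn
    | one =>
      intro hn
      convert map_one φ
      exact Units.ext (by simp)
    | prime p hp => intro hn; exact theta_ratIdele_prime q D _ ⟨p, hp⟩ rfl
    | mul a b iha ihb =>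
      intro hn
      have ha : (a : ℚ) ≠ 0 := fun h => hn (by rw [Nat.cast_mul, h, zero_mul])
      have hb : (b : ℚ) ≠ 0 := fun h => hn (by rw [Nat.cast_mul, h, mul_zero])
      rw [show Units.mk0 ((a * b : ℕ) : ℚ) hn = Units.mk0 (a : ℚ) ha * Units.mk0 (b : ℚ) hb from
        Units.ext (Nat.cast_mul a b), map_mul, iha ha, ihb hb, one_mul]
  have hint : ∀ z : ℤ, ∀ hz : (z : ℚ) ≠ 0, φ (Units.mk0 (z : ℚ) hz) = 1 := by
    intro z hz
    have hn : (z.natAbs : ℚ) ≠ 0 := by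
      simpa using hz
    rcases Int.natAbs_eq z with e | e
    · rw [show Units.mk0 (z : ℚ) hz = Units.mk0 (z.natAbs : ℚ) hn from Units.ext (by
        rw [Units.val_mk0, Units.val_mk0]; exact (congrArg (Int.cast : ℤ → ℚ) e).trans (Int.cast_natCast _))]
      exact hnat _ hn
    · rw [show Units.mk0 (z : ℚ) hz = -1 * Units.mk0 (z.natAbs : ℚ) hn from Units.ext (by
        rw [Units.val_mk0, Units.val_mul, Units.val_mk0, Units.val_neg, Units.val_one, neg_one_mul]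
        nth_rw 1 [e]; rw [Int.cast_neg, Int.cast_natCast]), map_mul, hnat _ hn, mul_one]
      exact theta_ratIdele_neg_one q D hD
  have hnum : ((r : ℚ).num : ℚ) ≠ 0 := by simp
  have hden : (((r : ℚ).den : ℤ) : ℚ) ≠ 0 := by simp
  have e : r = Units.mk0 _ hnum * (Units.mk0 _ hden)⁻¹ := Units.ext (by
    rw [Units.val_mul, Units.val_mk0, Units.val_inv_eq_inv_val, Units.val_mk0, ← div_eq_mul_inv,
      Int.cast_natCast, Rat.num_div_den])
  show φ r = 1
  rw [e, map_mul, map_inv, hint _ hnum, hint _ hden, inv_one, mul_one]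

end Fermat.Agent.ClassField.Idele
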