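import Fermat.Agent.ClassField.Idele.Cyclotomic.NormKernel
import Fermat.Agent.ClassField.Idele.PlaceIdeles
import Fermat.Agent.ClassField.Idele.Unramified
import Fermat.Agent.EC.Det.CyclotomicChar
import Fermat.Agent.Density.FrobeniusDensity
import Fermat.Agent.Density.PlacesConj

/-!
# The symbol on idele classes

`thetaCls k` on the classes of `k`; its value on the idele supported at one place; surjectivity
(primes splitting completely with prescribed class, by Frobenius density).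
-/

set_option autoImplicit false

noncomputable section

open IntermediateField
open scoped Pointwise

namespace Fermat.Agent.ClassField.Idele

local notation "Qb" => AlgebraicClosure ℚ
local notation "Γ" => (AlgebraicClosure ℚ ≃ₐ[ℚ] AlgebraicClosure ℚ)

variable (q : Nat.Primes) (D : Subgroup (ZMod (q : ℕ))ˣ) (hD : (-1 : (ZMod (q : ℕ))ˣ) ∈ D)

include hD in
lemma thetaAt_eq_of_classMap_eq {k : IntermediateField ℚ Qb} [FiniteDimensional ℚ k]
    (f g : ↥(idelesOf k))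
    (h : classMap Set.univ (f : IdeleGroup) = classMap Set.univ (g : IdeleGroup)) :
    thetaAt q D k f = thetaAt q D k g := by
  rw [← div_eq_one, ← map_div]
  obtain ⟨x, hx⟩ := classMap_univ_eq_one_iff.1
    (show classMap Set.univ ((f / g : ↥(idelesOf k)) : IdeleGroup) = 1 by
      rw [Subgroup.coe_div, map_div, h, div_self'])
  have hm : principal x ∈ idelesOf k := hx ▸ (f / g).2
  rw [show f / g = ⟨principal x, hm⟩ from Subtype.ext hx.symm]
  exact thetaAt_principal q D hD k x hm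

/-- The symbol on the classes of `k`. -/
def thetaCls (k : IntermediateField ℚ Qb) [FiniteDimensional ℚ k] :
    ↥(classesOf Set.univ k) →* (ZMod (q : ℕ))ˣ ⧸ D :=
  MonoidHom.mk' (fun c => thetaAt q D k ⟨c.2.choose, c.2.choose_spec.1⟩) fun a b => by
    rw [← map_mul]
    refine thetaAt_eq_of_classMap_eq q D hD _ _ ?_
    exact (a * b).2.choose_spec.2.trans
      ((congrArg₂ (· * ·) a.2.choose_spec.2 b.2.choose_spec.2).symm.trans (map_mul _ _ _).symm)

lemma thetaCls_classMap {k : IntermediateField ℚ Qb} [FiniteDimensional ℚ k] (f : ↥(idelesOf k)) :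
    thetaCls q D hD k ⟨classMap Set.univ (f : IdeleGroup), ⟨f, f.2, rfl⟩⟩ = thetaAt q D k f :=
  thetaAt_eq_of_classMap_eq q D hD _ _
    (show classMap Set.univ (Exists.choose _) = _ from Exists.choose_spec
      (⟨f, f.2, rfl⟩ : classMap Set.univ (f : IdeleGroup) ∈ classesOf Set.univ k) |>.2)

lemma thetaCls_relNorm {k L : IntermediateField ℚ Qb} [FiniteDimensional ℚ k]
    [FiniteDimensional ℚ L] (hkL : k ≤ L) (hFL : subField q D ≤ L) {c : IdeleClass Set.univ}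
    (hc : c ∈ classesOf Set.univ L) (hc' : relNorm k L c ∈ classesOf Set.univ k) :
    thetaCls q D hD k ⟨relNorm k L c, hc'⟩ = 1 := by
  obtain ⟨f, hf, rfl⟩ := hc
  rw [← thetaAt_relNorm q D hkL hFL hf,
    ← thetaCls_classMap q D hD ⟨relNorm k L f, relNorm_mem_idelesOf hf⟩]
  exact congrArg _ (Subtype.ext (classMap_relNorm f).symm)

lemma thetaCls_of_bot {k : IntermediateField ℚ Qb} [FiniteDimensional ℚ k] {c : IdeleClass Set.univ}
    (hc : c ∈ classesOf Set.univ (⊥ : IntermediateField ℚ Qb)) (hc' : c ∈ classesOf Set.univ k) :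
    thetaCls q D hD k ⟨c, hc'⟩ = thetaCls q D hD ⊥ ⟨c, hc⟩ ^ k.fixingSubgroup.index := by
  obtain ⟨f, hf, rfl⟩ := hc
  have hfk : f ∈ idelesOf k := fun σ _ => hf σ (by rw [fixingSubgroup_bot_eq_top]; trivial)
  have e1 : thetaCls q D hD k ⟨classMap Set.univ f, hc'⟩ = thetaAt q D k ⟨f, hfk⟩ :=
    thetaCls_classMap q D hD ⟨f, hfk⟩
  have e2 : thetaCls q D hD ⊥ ⟨classMap Set.univ f, ⟨f, hf, rfl⟩⟩ = thetaAt q D ⊥ ⟨f, hf⟩ :=
    thetaCls_classMap q D hD ⟨f, hf⟩
  rw [e1, e2, ← map_pow]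
  show theta q D _ = theta q D _
  refine congrArg (theta q D) (Subtype.ext ?_)
  show relNorm ⊥ k f =
    relNorm ⊥ ⊥ ((⟨f, hf⟩ : ↥(idelesOf ⊥)) ^ k.fixingSubgroup.index : ↥(idelesOf ⊥)).1
  have hf' : f ∈ invariants IdeleGroup (⊥ : IntermediateField ℚ Qb).fixingSubgroup := hf
  have h1 : relNorm ⊥ k f = f ^ k.fixingSubgroup.relIndex (⊥ : IntermediateField ℚ Qb).fixingSubgroup :=
    cosetProd_eq_pow hf'
  have h2 : relNorm ⊥ (⊥ : IntermediateField ℚ Qb) (f ^ k.fixingSubgroup.index) =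
      (f ^ k.fixingSubgroup.index) ^ (⊥ : IntermediateField ℚ Qb).fixingSubgroup.relIndex
        (⊥ : IntermediateField ℚ Qb).fixingSubgroup := cosetProd_eq_pow (pow_mem hf' _)
  rw [SubmonoidClass.coe_pow, h1, h2,
    Subgroup.relIndex_self, pow_one, fixingSubgroup_bot_eq_top, Subgroup.relIndex_top_right]

section single

variable {ℓ : Nat.Primes} (ι : Emb ℓ) (k : IntermediateField ℚ Qb) [FiniteDimensional ℚ k]

/-- The number of cosets of `k` in the orbit of `ι`: the local degree. -/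
def orbitCard : ℕ :=
  Nat.card {x : (⊥ : IntermediateField ℚ Qb).fixingSubgroup ⧸
      k.fixingSubgroup.subgroupOf (⊥ : IntermediateField ℚ Qb).fixingSubgroup //
    ∃ τ : LocalGal ℓ, ∀ y ∈ k, τ (ι y) = globalComp ι ((x.out : (⊥ : IntermediateField ℚ Qb).fixingSubgroup) : Γ) y}

lemma norm_padicValue_single {y : (PadicAlgCl (ℓ : ℕ))ˣ}
    (hy : (y : PadicAlgCl (ℓ : ℕ)) ∈ localField ι k)
    (hz : relNorm ⊥ k (single ι k y hy) ∈ idelesOf ⊥) :
    ‖(padicValue ℓ ⟨_, hz⟩ : ℚ_[(ℓ : ℕ)])‖ = ‖(y : PadicAlgCl (ℓ : ℕ))‖ ^ orbitCard ι k := by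
  classical
  let X := (⊥ : IntermediateField ℚ Qb).fixingSubgroup ⧸
      k.fixingSubgroup.subgroupOf (⊥ : IntermediateField ℚ Qb).fixingSubgroup
  have : Fintype X := Fintype.ofFinite _
  rw [← norm_algebraMap' (PadicAlgCl (ℓ : ℕ)), algebraMap_padicValue ℓ _ ι]
  show ‖(((cosetProd _ _ (single ι k y hy) : IdeleGroup) : Raw) ℓ ι : PadicAlgCl (ℓ : ℕ))‖ = _
  rw [cosetProd, finprod_eq_prod_of_fintype, coe_prod_smul_apply, norm_prod]
  have hterm : ∀ x : X, ‖(((single ι k y hy : IdeleGroup) : Raw) ℓ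
      (globalComp ι ((x.out : (⊥ : IntermediateField ℚ Qb).fixingSubgroup) : Γ)) : PadicAlgCl (ℓ : ℕ))‖ =
        if ∃ τ : LocalGal ℓ, ∀ z ∈ k, τ (ι z) = globalComp ι ((x.out : (⊥ : IntermediateField ℚ Qb).fixingSubgroup) : Γ) z
        then ‖(y : PadicAlgCl (ℓ : ℕ))‖ else 1 := fun x => by
    split_ifs with h
    · obtain ⟨τ, hτ⟩ := h
      rw [show (((single ι k y hy : IdeleGroup) : Raw) ℓ (globalComp ι _) : PadicAlgCl (ℓ : ℕ)) = _
        from singleFun_of_eqOn ι hy _ τ hτ, norm_localGal_apply]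
    · push Not at h
      rw [show ((single ι k y hy : IdeleGroup) : Raw) ℓ (globalComp ι _) = _
        from singleFun_of_forall_ne ι _ h, Units.val_one, norm_one]
  rw [Finset.prod_congr rfl fun x _ => hterm x, Finset.prod_ite, Finset.prod_const_one, mul_one,
    Finset.prod_const, orbitCard, Nat.card_eq_fintype_card, Fintype.card_subtype]

lemma padicValue_single_of_ne {y : (PadicAlgCl (ℓ : ℕ))ˣ}
    (hy : (y : PadicAlgCl (ℓ : ℕ)) ∈ localField ι k)
    (hz : relNorm ⊥ k (single ι k y hy) ∈ idelesOf ⊥) {ℓ' : Nat.Primes} (h : ℓ ≠ ℓ') :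
    padicValue ℓ' ⟨_, hz⟩ = 1 := by
  classical
  obtain ⟨ι'⟩ := nonempty_emb ℓ'
  have := Fintype.ofFinite ((⊥ : IntermediateField ℚ Qb).fixingSubgroup ⧸
      k.fixingSubgroup.subgroupOf (⊥ : IntermediateField ℚ Qb).fixingSubgroup)
  refine Units.ext ((algebraMap ℚ_[(ℓ' : ℕ)] (PadicAlgCl (ℓ' : ℕ))).injective ?_)
  rw [algebraMap_padicValue ℓ' _ ι', Units.val_one, map_one]
  show (((cosetProd _ _ (single ι k y hy) : IdeleGroup) : Raw) ℓ' ι' : PadicAlgCl (ℓ' : ℕ)) = _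
  rw [cosetProd, finprod_eq_prod_of_fintype, coe_prod_smul_apply]
  refine Finset.prod_eq_one fun x _ => ?_
  rw [single_apply_of_ne ι k _ y hy h, Units.val_one]

/-- **The symbol of an idele supported at one place.** -/
theorem thetaAt_single (hℓ : ℓ ≠ q) {y : (PadicAlgCl (ℓ : ℕ))ˣ}
    (hy : (y : PadicAlgCl (ℓ : ℕ)) ∈ localField ι k) {v : ℤ}
    (hv : ‖(y : PadicAlgCl (ℓ : ℕ))‖ ^ orbitCard ι k = ((ℓ : ℕ) : ℝ) ^ (-v)) :
    thetaAt q D k ⟨single ι k y hy, single_mem_idelesOf ι k y hy⟩ = primeClass q D ℓ ^ v := by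
  have hz : relNorm ⊥ k (single ι k y hy) ∈ idelesOf ⊥ :=
    relNorm_mem_idelesOf (single_mem_idelesOf ι k y hy)
  show theta q D ⟨relNorm ⊥ k (single ι k y hy), hz⟩ = _
  rw [theta_apply, finprod_eq_single _ ℓ fun ℓ' h => by
    rw [padicValue_single_of_ne ι k hy hz (Ne.symm h), map_one], localSymbol_of_ne q D hℓ]
  congr 1
  have h := norm_padicValue_single ι k hy hz
  rw [hv, Padic.norm_eq_zpow_neg_valuation (Units.ne_zero _)] at h
  have := zpow_right_injective₀ (show (0 : ℝ) < (ℓ : ℕ) by exact_mod_cast ℓ.2.pos)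
    (by exact_mod_cast ℓ.2.ne_one) h
  omega

omit [FiniteDimensional ℚ k] in
lemma orbitCard_eq_one (h : ∀ τ : LocalGal ℓ, ∀ x ∈ k, τ (ι x) = ι x) : orbitCard ι k = 1 := by
  rw [orbitCard, Nat.card_eq_one_iff_unique]
  have hk : ∀ σ : Γ, (∃ τ : LocalGal ℓ, ∀ y ∈ k, τ (ι y) = globalComp ι σ y) →
      σ ∈ k.fixingSubgroup := fun σ ⟨τ, hτ⟩ =>
    (IntermediateField.mem_fixingSubgroup_iff _ _).2 fun y hy => ι.toRingHom.injective
      ((hτ y hy).symm.trans (h τ y hy))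
  constructor
  · refine ⟨fun a b => Subtype.ext ?_⟩
    rw [← QuotientGroup.out_eq' a.1, ← QuotientGroup.out_eq' b.1, QuotientGroup.eq,
      Subgroup.mem_subgroupOf]
    exact mul_mem (inv_mem (hk _ a.2)) (hk _ b.2)
  · refine ⟨⟨QuotientGroup.mk 1, 1, fun y hy => ?_⟩⟩
    obtain ⟨n, hn⟩ := QuotientGroup.mk_out_eq_mul (k.fixingSubgroup.subgroupOf
      (⊥ : IntermediateField ℚ Qb).fixingSubgroup) 1
    rw [hn, one_mul, globalComp_apply,
      (IntermediateField.mem_fixingSubgroup_iff _ _).1 (Subgroup.mem_subgroupOf.1 n.2) y hy]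
    rfl

end single

/-- Outside finitely many primes, a place with residue field `𝔽_ℓ` has trivial decomposition. -/
theorem exists_finset_fixed (k : IntermediateField ℚ Qb) [FiniteDimensional ℚ k] :
    ∃ T : Finset Nat.Primes, ∀ ℓ ∉ T, ∀ ι : Emb ℓ,
      (∀ x ∈ k, ‖ι x‖ ≤ 1 → ‖ι x - ι x ^ (ℓ : ℕ)‖ < 1) →
      ∀ τ : LocalGal ℓ, ∀ x ∈ k, τ (ι x) = ι x := by
  obtain ⟨α, hk⟩ := exists_eq_adjoin_simple k
  obtain ⟨a, ha, hint⟩ := ((IsFractionRing.isAlgebraic_iff ℤ ℚ Qb).mpr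
    (Algebra.IsAlgebraic.isAlgebraic α)).exists_integral_multiple
  set β : Qb := a • α with hβ
  set g := minpoly ℤ β
  have hsep : Polynomial.aeval β g.derivative ≠ 0 := by
    have h := (Algebra.IsSeparable.isSeparable ℚ β).aeval_derivative_ne_zero (minpoly.aeval ℚ β)
    rw [minpoly.isIntegrallyClosed_eq_field_fractions' ℚ hint, Polynomial.derivative_map,
      Polynomial.aeval_map_algebraMap] at h
    exact h
  obtain ⟨A, hA⟩ := exists_primes_norm_eq_one (Units.mk0 _ hsep)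
  refine ⟨A, fun ℓ hℓ ι hres τ x hx => ?_⟩
  have : Fact (ℓ : ℕ).Prime := ⟨ℓ.2⟩
  let R := padicIntegers (ℓ : ℕ)
  have hβk : β ∈ k := zsmul_mem (hk ▸ IntermediateField.mem_adjoin_simple_self ℚ α) a
  have hle : ‖ι β‖ ≤ 1 := norm_le_one_of_isIntegral (hint.map (ι.restrictScalars ℤ))
  let z : R := ⟨ι β, hle⟩
  have hy1 : ‖τ (ι β)‖ ≤ 1 := by rw [norm_localGal_apply]; exact hle
  let y : R := ⟨τ (ι β), hy1⟩
  have hnon : ∀ w : R, ‖(w : PadicAlgCl (ℓ : ℕ))‖ < 1 → w ∈ IsLocalRing.maximalIdeal R := fun w hw => by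
    rw [IsLocalRing.mem_maximalIdeal, mem_nonunits_iff]
    intro hu
    obtain ⟨w', hw'⟩ := isUnit_iff_exists_inv.1 hu
    have h1 := congrArg (fun e : R => ‖(e : PadicAlgCl (ℓ : ℕ))‖) hw'
    simp only [MulMemClass.coe_mul, norm_mul, OneMemClass.coe_one, norm_one] at h1
    have h2 : ‖(w' : PadicAlgCl (ℓ : ℕ))‖ ≤ 1 := w'.2
    nlinarith [norm_nonneg (w : PadicAlgCl (ℓ : ℕ))]
  have hnon' : ∀ w : R, w ∈ IsLocalRing.maximalIdeal R → ‖(w : PadicAlgCl (ℓ : ℕ))‖ < 1 := fun w hw => by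
    by_contra hcon
    rw [not_lt] at hcon
    rw [IsLocalRing.mem_maximalIdeal, mem_nonunits_iff] at hw
    have h1 : ‖(w : PadicAlgCl (ℓ : ℕ))‖ = 1 := le_antisymm w.2 hcon
    have hw0 : (w : PadicAlgCl (ℓ : ℕ)) ≠ 0 := fun h => by rw [h, norm_zero] at h1; norm_num at h1
    refine hw (isUnit_iff_exists_inv.2 ⟨⟨(w : PadicAlgCl (ℓ : ℕ))⁻¹, ?_⟩, Subtype.ext (mul_inv_cancel₀ hw0)⟩)
    show ‖(w : PadicAlgCl (ℓ : ℕ))⁻¹‖ ≤ 1
    rw [norm_inv, h1, inv_one]
  have hchar : CharP (IsLocalRing.ResidueField R) (ℓ : ℕ) := by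
    refine (CharP.charP_iff_prime_eq_zero ℓ.2).2 ?_
    rw [← map_natCast (IsLocalRing.residue R), IsLocalRing.residue_eq_zero_iff]
    refine hnon _ ?_
    show ‖((ℓ : ℕ) : R).1‖ < 1
    rw [SubringClass.coe_natCast, norm_natCast_prime]
    exact inv_lt_one_of_one_lt₀ (Nat.one_lt_cast.2 ℓ.2.one_lt)
  have hzres : (IsLocalRing.residue R z) ^ (ℓ : ℕ) = IsLocalRing.residue R z := by
    rw [← map_pow, eq_comm]
    exact Ideal.Quotient.eq.2 (hnon _ (hres β hβk hle))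
  obtain ⟨c, hc⟩ : ∃ c : ℤ, (c : IsLocalRing.ResidueField R) = IsLocalRing.residue R z :=
    (mem_bot_iff_intCast (ℓ : ℕ) (IsLocalRing.ResidueField R)).1
      ((Subfield.mem_bot_iff_pow_eq_self (IsLocalRing.ResidueField R) (ℓ : ℕ)).2 hzres)
  have hzc : ‖ι β - (c : PadicAlgCl (ℓ : ℕ))‖ < 1 := by
    have h := hnon' (z - (c : R)) (Ideal.Quotient.eq.1 (hc.symm.trans (map_intCast (IsLocalRing.residue R) c).symm))
    simpa using h
  have hd : ‖τ (ι β) - ι β‖ < 1 := by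
    have h1 : ‖τ (ι β) - (c : PadicAlgCl (ℓ : ℕ))‖ < 1 := by
      rw [show τ (ι β) - (c : PadicAlgCl (ℓ : ℕ)) = τ (ι β - c) by rw [map_sub, map_intCast],
        norm_localGal_apply]
      exact hzc
    calc ‖τ (ι β) - ι β‖ = ‖(τ (ι β) - c) + -(ι β - c)‖ := by ring_nf
      _ ≤ max _ _ := IsUltrametricDist.norm_add_le_max _ _
      _ < 1 := max_lt h1 (by rwa [norm_neg])
  have hfix : τ (ι β) = ι β := by
    by_contra hne
    have hval : ∀ w : R, algebraMap R (PadicAlgCl (ℓ : ℕ)) w = (w : PadicAlgCl (ℓ : ℕ)) := fun _ => rfl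
    have hz0 : Polynomial.aeval z g = 0 := by
      refine Subtype.val_injective (p := (· ∈ R)) ?_
      show algebraMap R (PadicAlgCl (ℓ : ℕ)) _ = 0
      rw [← Polynomial.aeval_algebraMap_apply, hval]
      change Polynomial.aeval ((ι.restrictScalars ℤ) β) g = 0
      rw [Polynomial.aeval_algHom_apply, minpoly.aeval, map_zero]
    have hy0 : Polynomial.aeval y g = 0 := by
      refine Subtype.val_injective (p := (· ∈ R)) ?_
      show algebraMap R (PadicAlgCl (ℓ : ℕ)) _ = 0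
      rw [← Polynomial.aeval_algebraMap_apply, hval]
      change Polynomial.aeval (((τ.restrictScalars ℤ).toAlgHom) (ι β)) g = 0
      rw [Polynomial.aeval_algHom_apply]
      change τ (Polynomial.aeval ((ι.restrictScalars ℤ) β) g) = 0
      rw [Polynomial.aeval_algHom_apply, minpoly.aeval, map_zero, map_zero]
    obtain ⟨e, he⟩ := Polynomial.binomExpansion (g.map (algebraMap ℤ R)) z (y - z)
    rw [add_sub_cancel, Polynomial.derivative_map, Polynomial.eval_map_algebraMap,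
      Polynomial.eval_map_algebraMap, Polynomial.eval_map_algebraMap, hz0, hy0, zero_add,
      pow_two, ← mul_assoc, ← add_mul] at he
    have hzero := (mul_eq_zero.mp he.symm).resolve_right (sub_ne_zero.mpr fun h =>
      hne (congrArg Subtype.val h))
    have h1 : Polynomial.aeval z g.derivative ∈ IsLocalRing.maximalIdeal R := by
      rw [eq_neg_of_add_eq_zero_left hzero]
      exact neg_mem (Ideal.mul_mem_left _ _ (hnon _ hd))
    have h2 := hnon' _ h1
    have h3 : ((Polynomial.aeval z g.derivative : R) : PadicAlgCl (ℓ : ℕ)) =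
        ι (Polynomial.aeval β g.derivative) := by
      rw [← hval, ← Polynomial.aeval_algebraMap_apply, hval]
      change Polynomial.aeval ((ι.restrictScalars ℤ) β) g.derivative = _
      rw [Polynomial.aeval_algHom_apply]
      rfl
    rw [h3] at h2
    exact h2.ne (hA ℓ hℓ ι)
  rw [hk] at hx
  induction hx using IntermediateField.adjoin_induction with
  | mem z hz =>
    rw [Set.mem_singleton_iff.mp hz]
    have hα : α = (algebraMap ℚ Qb (a : ℚ))⁻¹ * β := by
      rw [hβ, zsmul_eq_mul, map_intCast, ← mul_assoc, inv_mul_cancel₀ (Int.cast_ne_zero.mpr ha),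
        one_mul]
    rw [hα, map_mul, map_mul, hfix, map_inv₀, map_inv₀, AlgHom.commutes,
      IsScalarTower.algebraMap_apply ℚ ℚ_[(ℓ : ℕ)] (PadicAlgCl (ℓ : ℕ)), AlgEquiv.commutes]
  | algebraMap r =>
    rw [AlgHom.commutes, IsScalarTower.algebraMap_apply ℚ ℚ_[(ℓ : ℕ)] (PadicAlgCl (ℓ : ℕ)),
      AlgEquiv.commutes]
  | add u v _ _ hu hv => rw [map_add, map_add, hu, hv]
  | inv u _ hu => rw [map_inv₀, map_inv₀, hu]
  | mul u v _ _ hu hv => rw [map_mul, map_mul, hu, hv]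

/-- A Frobenius element at `ℓ ≠ q` has the class of `ℓ`. -/
lemma cyclotomicClass_of_isFrobeniusAt {ℓ : Nat.Primes} (hℓ : ℓ ≠ q) {A : ValuationSubring Qb}
    (hA : A.LiesOverPrime (ℓ : ℕ)) {σ : Γ} (hσ : A.IsFrobeniusAt σ (ℓ : ℕ)) :
    cyclotomicClass q D σ = primeClass q D ℓ := by
  have : NeZero (q : ℕ) := ⟨q.2.ne_zero⟩
  have hcop : (ℓ : ℕ).Coprime (q : ℕ) :=
    (Nat.coprime_primes ℓ.2 q.2).mpr fun h => hℓ (Subtype.ext h)
  rw [primeClass, dif_pos hcop]
  refine congrArg (QuotientGroup.mk' D) (Units.ext ?_)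
  have h1 := EC.cycloChar_eq_of_isFrobeniusAt (n := (q : ℕ)) ℓ.2
    (fun h => hℓ (Subtype.ext ((Nat.prime_dvd_prime_iff_eq ℓ.2 q.2).1 h))) hA hσ
  rw [ZMod.coe_unitOfCoprime, ← h1]
  have h2 := apply_zetaQ q σ
  rw [EC.apply_eq_pow_cycloChar (q : ℕ) σ (zetaQ_spec q).pow_eq_one] at h2
  exact ZMod.val_injective _ ((zetaQ_spec q).pow_inj (ZMod.val_lt _) (ZMod.val_lt _) h2.symm)

include hD in
/-- **The symbol of `L` is onto** when `Gal(Q̄/L)` surjects onto the classes. -/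
theorem thetaCls_surjective (L : IntermediateField ℚ Qb) [FiniteDimensional ℚ L] [Normal ℚ L]
    (hsurj : ∀ a, ∃ g ∈ L.fixingSubgroup, cyclotomicClass q D g = a) :
    Function.Surjective (thetaCls q D hD L) := by
  classical
  intro a
  obtain ⟨g, hg, rfl⟩ := hsurj a
  obtain ⟨T, hT⟩ := exists_finset_fixed L
  obtain ⟨n, hn, hnS, A, σ, hA, hσ, -, i, j, hσg, hgσ⟩ :=
    Density.exists_isFrobeniusAt_agree_pow (L ⊔ subField q D) g
      (insert (q : ℕ) (T.image (Subtype.val : Nat.Primes → ℕ)))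
  let ℓ : Nat.Primes := ⟨n, hn⟩
  have hℓq : ℓ ≠ q := fun h => hnS (Finset.mem_insert.2 (Or.inl (congrArg Subtype.val h)))
  have hℓT : ℓ ∉ T := fun h => hnS (Finset.mem_insert.2 (Or.inr (Finset.mem_image_of_mem _ h)))
  have : Fact (ℓ : ℕ).Prime := ⟨ℓ.2⟩
  obtain ⟨ι⟩ := nonempty_emb ℓ
  obtain ⟨b, hb⟩ := Density.exists_smul_eq hn hA (liesOverPrime_placeOfEmb ι)
  have hσL : σ ∈ L.fixingSubgroup := (IntermediateField.mem_fixingSubgroup_iff _ _).2 fun x hx => by
    rw [hσg x ((le_sup_left : L ≤ L ⊔ subField q D) hx)]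
    exact (IntermediateField.mem_fixingSubgroup_iff _ _).1 (pow_mem hg i) x hx
  have hσ' : (placeOfEmb ι).IsFrobeniusAt (b * σ * b⁻¹) n := by
    rw [hb]; exact Density.isFrobeniusAt_conj hσ b
  have hnorm : L.fixingSubgroup.Normal :=
    ⟨fun τ hτ σ => (IntermediateField.mem_fixingSubgroup_iff _ _).mpr fun x hx => by
      have hx' : σ.symm x ∈ L :=
        (IntermediateField.normal_iff_forall_map_le'.mp ‹Normal ℚ L› σ.symm) ⟨x, hx, rfl⟩
      show σ (τ (σ.symm x)) = x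
      rw [(IntermediateField.mem_fixingSubgroup_iff _ _).mp hτ _ hx', AlgEquiv.apply_symm_apply]⟩
  have hσ'L : b * σ * b⁻¹ ∈ L.fixingSubgroup := hnorm.conj_mem σ hσL b
  have hfixed : ∀ τ : LocalGal ℓ, ∀ x ∈ L, τ (ι x) = ι x := hT ℓ hℓT ι fun x hx hle => by
    have h := (Density.isFrobeniusAt_iff.1 hσ').2 x hle
    rw [(IntermediateField.mem_fixingSubgroup_iff _ _).1 hσ'L x hx, mem_nonunits_placeOfEmb,
      map_sub, map_pow] at h
    exact h
  let y : (PadicAlgCl (ℓ : ℕ))ˣ := Units.mk0 ((ℓ : ℕ) : PadicAlgCl (ℓ : ℕ))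
    (Nat.cast_ne_zero.2 ℓ.2.ne_zero)
  have hy : (y : PadicAlgCl (ℓ : ℕ)) ∈ localField ι L := IntermediateField.natCast_mem _ _
  have h1 := thetaAt_single q D ι L hℓq hy (v := 1) (by
    rw [orbitCard_eq_one ι L hfixed, pow_one, Units.val_mk0, norm_natCast_prime, zpow_neg_one])
  rw [zpow_one] at h1
  refine ⟨⟨classMap Set.univ (single ι L y hy), ⟨_, single_mem_idelesOf ι L y hy, rfl⟩⟩ ^ j, ?_⟩
  rw [map_pow, show thetaCls q D hD L ⟨classMap Set.univ (single ι L y hy), _⟩ = primeClass q D ℓ from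
    (thetaCls_classMap q D hD ⟨_, single_mem_idelesOf ι L y hy⟩).trans h1,
    ← cyclotomicClass_of_isFrobeniusAt q D hℓq hA hσ, ← map_pow]
  have hker : (σ ^ j)⁻¹ * g ∈ (cyclotomicClass q D).ker := by
    rw [← fixingSubgroup_subField]
    refine (IntermediateField.mem_fixingSubgroup_iff _ _).2 fun x hx => ?_
    show (σ ^ j).symm (g x) = x
    rw [hgσ x ((le_sup_right : subField q D ≤ L ⊔ subField q D) hx), AlgEquiv.symm_apply_apply]
  rw [MonoidHom.mem_ker, map_mul, map_inv, inv_mul_eq_one] at hker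
  exact hker

end Fermat.Agent.ClassField.Idele
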